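import Mathlib
import Fermat.Agent.LT.General.FieldK
import Fermat.Agent.LT.General.Spectral.Coeff
import Fermat.Agent.LT.Descent.Classical.Reduce

set_option autoImplicit false

/-!
# The quadratic field of a general setup as Eisenstein numbers and the dual of its integers
-/

noncomputable section

open NumberField IsDedekindDomain WithZero
open FermatAgent.LT (Adf omega EisInt deltaE deltaE_sq deltaE_ne_zero coe_deltaE pairX pairX_embVec
  embVec embVec_apply smallAdeles adelicChar phaseInf loc)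
open FermatAgent.LT.Descended (rat_int_small)

namespace FermatAgent.LTG

namespace Setup

variable (S : Setup)

theorem exists_omegaK : ∃ ζ : S.K, IsPrimitiveRoot ζ 3 ∧ S.emb ζ = omega := by
  have hz := IsCyclotomicExtension.zeta_spec 3 ℚ S.K
  set z := IsCyclotomicExtension.zeta 3 ℚ S.K
  have hx : IsPrimitiveRoot (S.emb z) 3 := hz.map_of_injective S.emb.injective
  have h3 : S.emb z ^ 3 = 1 := hx.pow_eq_one
  have h1 : S.emb z ≠ 1 := hx.ne_one (by norm_num)
  have hq : (S.emb z - omega) * (S.emb z - (-1 - omega)) = 0 := by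
    have h : S.emb z ^ 2 + S.emb z + 1 = 0 :=
      (mul_eq_zero.mp (show (S.emb z - 1) * (S.emb z ^ 2 + S.emb z + 1) = 0 by
        linear_combination h3)).resolve_left (sub_ne_zero.mpr h1)
    linear_combination h - LT.Period.omega_sq
  rcases mul_eq_zero.mp hq with h | h
  · exact ⟨z, hz, sub_eq_zero.mp h⟩
  · refine ⟨z ^ 2, hz.pow_of_coprime 2 (by norm_num), ?_⟩
    rw [map_pow, sub_eq_zero.mp h]
    linear_combination LT.Period.omega_sq

theorem mem_eisInt (x : 𝓞 S.K) : S.emb (x : S.K) ∈ EisInt := by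
  obtain ⟨ζ, hζ, hω⟩ := S.exists_omegaK
  have : Fact (Nat.Prime 3) := ⟨Nat.prime_three⟩
  have hI := IsCyclotomicExtension.Rat.isIntegralClosure_adjoin_singleton_of_prime hζ
  obtain ⟨y, hy⟩ := hI.isIntegral_iff.1 x.isIntegral_coe
  rw [show (x : S.K) = (y : S.K) from hy.symm]
  suffices h : ∀ z ∈ Algebra.adjoin ℤ ({ζ} : Set S.K), S.emb z ∈ EisInt from h _ y.2
  intro z hz
  induction hz using Algebra.adjoin_induction with
  | mem z hz =>
    rw [Set.mem_singleton_iff] at hz
    rw [hz, hω]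
    exact Subring.subset_closure rfl
  | algebraMap n => simp
  | add z z' _ _ hz hz' => rw [map_add]; exact add_mem hz hz'
  | mul z z' _ _ hz hz' => rw [map_mul]; exact mul_mem hz hz'

/-- The ring of integers as Eisenstein integers. -/
def toEis : 𝓞 S.K →+* EisInt :=
  (S.emb.comp (algebraMap (𝓞 S.K) S.K)).codRestrict EisInt S.mem_eisInt

theorem coe_toEis (x : 𝓞 S.K) : (S.toEis x : ℂ) = S.emb (x : S.K) := rfl

theorem toEis_bijective : Function.Bijective S.toEis := by
  refine ⟨fun x y h => RingOfIntegers.coe_injective (S.emb.injective ?_), fun x => ?_⟩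
  · rw [← coe_toEis, ← coe_toEis, h]
  · obtain ⟨ζ, hζ, hω⟩ := S.exists_omegaK
    obtain ⟨a, b, rfl⟩ := LT.Period.exists_eq_eis x
    obtain ⟨z, hzω⟩ : ∃ z : 𝓞 S.K, S.emb (z : S.K) = omega :=
      ⟨⟨ζ, hζ.isIntegral (by norm_num)⟩, hω⟩
    refine ⟨(a : 𝓞 S.K) + (b : 𝓞 S.K) * z, Subtype.ext ?_⟩
    rw [coe_toEis, LT.Period.coe_eis, ← hzω]
    simp

/-- The identification of the integers of `K` with the Eisenstein integers. -/
def eK : EisInt ≃+* 𝓞 S.K := (RingEquiv.ofBijective S.toEis S.toEis_bijective).symm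

theorem emb_eK (x : EisInt) : S.emb ((S.eK x : 𝓞 S.K) : S.K) = (x : ℂ) := by
  rw [← coe_toEis]
  exact congrArg Subtype.val ((RingEquiv.ofBijective S.toEis S.toEis_bijective).apply_symm_apply x)

theorem eK_natCast (n : ℕ) : S.eK (n : EisInt) = (n : 𝓞 S.K) := map_natCast _ n

/-- The trace of the complex embedding. -/
theorem trace_eq_two_re (x : S.K) : (Algebra.trace ℚ S.K x : ℝ) = 2 * (S.emb x).re := by
  have h := pairX_embVec x (1 : S.K)
  rw [mul_one] at h
  rw [← h, pairX, Fintype.sum_unique]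
  simp [embVec_apply, emb]

/-- The square root of `-3`. -/
def deltaK : 𝓞 S.K := S.eK deltaE

theorem deltaK_ne_zero : S.deltaK ≠ 0 :=
  (map_ne_zero_iff _ S.eK.injective).mpr deltaE_ne_zero

theorem deltaK_coe_ne_zero : (S.deltaK : S.K) ≠ 0 :=
  RingOfIntegers.coe_ne_zero_iff.mpr S.deltaK_ne_zero

theorem deltaK_sq : S.deltaK * S.deltaK = -3 := by
  rw [deltaK, ← map_mul, deltaE_sq, map_neg, S.eK_natCast]
  norm_num

/-- Traces of multiples of `√-3` are multiples of three. -/
theorem three_dvd_trace_deltaK_mul (z : 𝓞 S.K) :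
    (3 : ℤ) ∣ Algebra.trace ℤ (𝓞 S.K) (S.deltaK * z) := by
  obtain ⟨x, rfl⟩ := S.eK.surjective z
  obtain ⟨a, b, rfl⟩ := LT.Period.exists_eq_eis x
  refine ⟨-b, ?_⟩
  have h1 : ((Algebra.trace ℤ (𝓞 S.K) (S.deltaK * S.eK (LT.Period.eis a b)) : ℤ) : ℚ) =
      Algebra.trace ℚ S.K ((S.deltaK * S.eK (LT.Period.eis a b) : 𝓞 S.K) : S.K) :=
    (Algebra.trace_localization ℤ (nonZeroDivisors ℤ) _).symm
  have h2 := S.trace_eq_two_re ((S.deltaK * S.eK (LT.Period.eis a b) : 𝓞 S.K) : S.K)
  rw [← h1, deltaK, ← map_mul, S.emb_eK] at h2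
  push_cast at h2
  have h3 : ((Algebra.trace ℤ (𝓞 S.K) (S.deltaK * S.eK (LT.Period.eis a b)) : ℤ) : ℝ) =
      ((3 * -b : ℤ) : ℝ) := by
    rw [deltaK, ← map_mul, h2]
    simp only [Complex.mul_re, coe_deltaE, LT.Period.coe_eis, Complex.add_re, Complex.add_im,
      Complex.mul_im, LT.Period.omega_re, LT.Period.omega_im, Complex.one_re, Complex.one_im,
      Complex.intCast_re, Complex.intCast_im, Complex.re_ofNat, Complex.im_ofNat, Int.cast_mul,
      Int.cast_neg, Int.cast_ofNat]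
    have h4 : Real.sqrt 3 * Real.sqrt 3 = 3 := Real.mul_self_sqrt (by norm_num)
    linear_combination (-(b : ℝ)) * h4
  exact_mod_cast h3

theorem two_re_div_delta (a b : ℤ) :
    2 * ((LT.Period.eis a b : ℂ) / (deltaE : ℂ)).re = b := by
  rw [Complex.div_re, LT.deltaE, LT.Period.normSq_eis, LT.Period.eis_re, LT.Period.eis_im,
    LT.Period.eis_re, LT.Period.eis_im]
  push_cast
  field_simp
  ring_nf
  rw [Real.sq_sqrt (by norm_num : (0 : ℝ) ≤ 3)]

/-- Numbers with integral traces against the integers lie in `(√-3)⁻¹ O`. -/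
theorem exists_deltaK_mul_of_traces {y : S.K}
    (h : ∀ o : 𝓞 S.K, ∃ n : ℤ, Algebra.trace ℚ S.K (y * (o : S.K)) = n) :
    ∃ z : 𝓞 S.K, (z : S.K) = (S.deltaK : S.K) * y := by
  have hre : ∀ x : EisInt, ∃ n : ℤ, 2 * (S.emb y * (x : ℂ)).re = n := fun x => by
    obtain ⟨n, hn⟩ := h (S.eK x)
    refine ⟨n, ?_⟩
    rw [← S.emb_eK x, ← map_mul, ← S.trace_eq_two_re, hn, Rat.cast_intCast]
  obtain ⟨A, hA⟩ := hre 1
  obtain ⟨B, hB⟩ := hre ⟨omega, LT.Period.omega_mem⟩
  rw [OneMemClass.coe_one, mul_one] at hA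
  refine ⟨S.eK (LT.Period.eis (A + B) A), S.emb.injective ?_⟩
  rw [S.emb_eK, ← LT.mem_eisInt_of_traces hA hB, deltaK, map_mul, S.emb_eK, mul_comm]

/-- The finite adeles on which the character is trivial against the integers. -/
def InDual (b : Adf S.K) : Prop :=
  algebraMap S.K (Adf S.K) (S.deltaK : S.K) * b ∈ smallAdeles (0 : HeightOneSpectrum (𝓞 S.K) → ℕ)

variable {S}

theorem InDual.add {b c : Adf S.K} (hb : S.InDual b) (hc : S.InDual c) : S.InDual (b + c) := by
  rw [InDual, mul_add]; exact add_mem hb hc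

theorem InDual.sub {b c : Adf S.K} (hb : S.InDual b) (hc : S.InDual c) : S.InDual (b - c) := by
  rw [InDual, mul_sub]; exact sub_mem hb hc

theorem InDual.neg {b : Adf S.K} (hb : S.InDual b) : S.InDual (-b) := by
  rw [InDual, mul_neg]; exact neg_mem hb

theorem InDual.mul_int {b x : Adf S.K} (hb : S.InDual b)
    (hx : x ∈ smallAdeles (0 : HeightOneSpectrum (𝓞 S.K) → ℕ)) : S.InDual (b * x) := by
  rw [InDual, ← mul_assoc]; exact LT.mul_mem_smallAdeles hb hx

theorem InDual.of_integral {b : Adf S.K}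
    (hb : b ∈ smallAdeles (0 : HeightOneSpectrum (𝓞 S.K) → ℕ)) : S.InDual b :=
  LT.mul_mem_smallAdeles (rat_int_small _) hb

theorem inDual_iff {b : Adf S.K} :
    S.InDual b ↔ ∀ v : HeightOneSpectrum (𝓞 S.K),
      v.intValuation S.deltaK * Valued.v (b v) ≤ 1 := by
  refine forall_congr' fun v => ?_
  rw [LT.adele_mul_apply, map_mul, LT.adele_algebraMap_apply, LT.valued_loc,
    HeightOneSpectrum.valuation_of_algebraMap, Pi.zero_apply, Nat.cast_zero, neg_zero, exp_zero]

/-- The character is trivial on the dual of the integers. -/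
theorem InDual.char_eq_one {b : Adf S.K} (hb : S.InDual b) : adelicChar b = 1 := by
  obtain ⟨y, hy⟩ := LT.exists_rat_int b
  obtain ⟨z, hz⟩ := LT.exists_int_of_small_zero (b := (S.deltaK : S.K) * y) (by
    have := sub_mem hb (InDual.of_integral hy)
    rwa [← mul_sub, sub_sub_cancel, ← map_mul] at this)
  rw [LT.adelicChar_apply_of_near hy, LT.phaseInf_eq_exp_trace, Complex.exp_eq_one_iff]
  obtain ⟨x, rfl⟩ := S.eK.surjective z
  obtain ⟨p, q, rfl⟩ := LT.Period.exists_eq_eis x
  refine ⟨q, ?_⟩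
  have ht : (Algebra.trace ℚ S.K y : ℝ) = q := by
    rw [S.trace_eq_two_re, ← two_re_div_delta p q, ← S.emb_eK, hz, map_mul, deltaK, S.emb_eK,
      mul_div_cancel_left₀ _ (fun h => deltaE_ne_zero (Subtype.ext h))]
  rw [show ((Algebra.trace ℚ S.K y : ℚ) : ℂ) = (((Algebra.trace ℚ S.K y : ℚ) : ℝ) : ℂ) by norm_num,
    ht]
  push_cast
  ring

theorem inDual_of_char {b : Adf S.K}
    (h : ∀ o : 𝓞 S.K, adelicChar (b * algebraMap S.K (Adf S.K) (o : S.K)) = 1) : S.InDual b := by
  obtain ⟨y, hy⟩ := LT.exists_rat_int b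
  obtain ⟨z, hz⟩ := S.exists_deltaK_mul_of_traces (y := y) fun o => by
    refine exists_int_of_phaseInf_eq_one ?_
    rw [← h o]
    refine (LT.adelicChar_apply_of_near ?_).symm
    rw [map_mul, ← sub_mul]
    exact LT.mul_mem_smallAdeles hy (rat_int_small o)
  have h1 : S.InDual (algebraMap S.K (Adf S.K) y) := by
    rw [InDual, ← map_mul, ← hz]
    exact rat_int_small z
  simpa using h1.add (InDual.of_integral hy)

end Setup

end FermatAgent.LTG

end
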