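import Mathlib
import Fermat.Agent.LT.General.Level.Good
import Fermat.Agent.LT.General.Spectral.Translate
import Fermat.Agent.LT.General.Spectral.BoxLift
import Fermat.Agent.LT.General.Classical.Eis

set_option autoImplicit false

/-!
# The level of the classical form and the numbers entering the translations
-/

noncomputable section

open NumberField IsDedekindDomain WithZero
open FermatAgent.LT (Adf GAf IntAd intToAdele congrSubgroup upperTri smallAdeles IsNearOne loc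
  IsLevelExp)
open FermatAgent.LT.Descended (nExp valued_nExp le_nExp_iff nExp_eq_zero_iff eventually_nExp
  rat_small_iff rat_int_small crt crt_apply redA_crt exists_redA RedA IsUnitId)

namespace FermatAgent.LTG

namespace Setup.Level

variable {S : Setup} (D : S.Level)

/-- The level as an integer of `K`. -/
abbrev nK : 𝓞 S.K := (D.lvl : 𝓞 S.K)

/-- The places of `K` over `m`. -/
def badK (S : Setup) : Set (HeightOneSpectrum (𝓞 S.K)) := {v | (S.m : 𝓞 S.K) ∈ v.asIdeal}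

theorem nK_ne_zero : D.nK ≠ 0 := Nat.cast_ne_zero.mpr (pow_ne_zero _ S.m_ne_zero)

theorem levelK_ne_bot : D.levelIdeal S.K ≠ ⊥ := by simp [Level.lvl, S.m_ne_zero]

theorem isLevelExp_nExp : IsLevelExp (D.levelIdeal S.K) (nExp D.nK) := fun v k hk =>
  (le_nExp_iff D.nK_ne_zero v k).mpr (hk (Ideal.mem_span_singleton_self _))

theorem nK_mem_iff (v : HeightOneSpectrum (𝓞 S.K)) : D.nK ∈ v.asIdeal ↔ v ∈ badK S := by
  rw [nK, Level.lvl, Nat.cast_pow]
  exact ⟨fun h => v.isPrime.mem_of_pow_mem _ h,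
    fun h => Ideal.pow_mem_of_mem _ h _ (Nat.succ_pos _)⟩

theorem nExp_eq_zero {v : HeightOneSpectrum (𝓞 S.K)} (hv : v ∉ badK S) : nExp D.nK v = 0 :=
  (nExp_eq_zero_iff D.nK_ne_zero v).mpr fun h => hv ((D.nK_mem_iff v).mp h)

theorem nExp_ne_zero {v : HeightOneSpectrum (𝓞 S.K)} (hv : v ∈ badK S) : nExp D.nK v ≠ 0 :=
  fun h => (nExp_eq_zero_iff D.nK_ne_zero v).mp h ((D.nK_mem_iff v).mpr hv)

/-- A ninth of `M₁`. -/
def d9 : ℕ := D.M₁ / 9

theorem nine_mul_d9 : 9 * D.d9 = D.M₁ := by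
  refine Nat.mul_div_cancel' ?_
  rw [Level.M₁]
  exact (pow_dvd_pow_of_dvd (Setup.three_dvd_m (S := S)) 2).trans
    (pow_dvd_pow _ (by have := D.two_le; omega))

/-- The exponent of the translation. -/
def tExp : ℕ := D.l + 2 - 4 * D.k

theorem lvl_eq_M₁_mul : D.lvl = D.M₁ * S.m ^ D.tExp := by
  rw [Level.lvl, Level.M₁, tExp, ← pow_add]
  congr 1
  have := D.l_ge
  omega

/-- The generator of the upper translations fixing the descended forms. -/
def c0 : 𝓞 S.K := (3 * D.d9 : ℕ) * S.deltaK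

/-- The translation. -/
def tK : 𝓞 S.K := S.deltaK * (S.m : 𝓞 S.K) ^ D.tExp

theorem c0_mul_delta : D.c0 * S.deltaK = -(D.M₁ : 𝓞 S.K) := by
  rw [c0, mul_assoc, S.deltaK_sq, ← D.nine_mul_d9]
  push_cast
  ring

theorem c0_mul_tK : D.c0 * D.tK = -D.nK := by
  rw [tK, ← mul_assoc, c0_mul_delta, nK, lvl_eq_M₁_mul]
  push_cast
  ring

theorem c0_dvd : D.c0 ∣ D.nK := ⟨-D.tK, by rw [mul_neg, c0_mul_tK, neg_neg]⟩

theorem c0_ne_zero : D.c0 ≠ 0 := fun h => D.nK_ne_zero (by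
  have := D.c0_mul_tK
  rwa [h, zero_mul, eq_comm, neg_eq_zero] at this)

theorem tK_ne_zero : D.tK ≠ 0 := fun h => D.nK_ne_zero (by
  have := D.c0_mul_tK
  rwa [h, mul_zero, eq_comm, neg_eq_zero] at this)

theorem nExp_c0_le (v : HeightOneSpectrum (𝓞 S.K)) : nExp D.c0 v ≤ nExp D.nK v :=
  (le_nExp_iff D.nK_ne_zero v _).mpr
    (Ideal.mem_of_dvd _ D.c0_dvd ((le_nExp_iff D.c0_ne_zero v _).mp le_rfl))

theorem three_dvd_c0_mul (o : 𝓞 S.K) : (3 : 𝓞 S.K) ∣ D.c0 * o :=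
  ⟨(D.d9 : 𝓞 S.K) * S.deltaK * o, by rw [c0]; push_cast; ring⟩

theorem c0_mul_mem_boxBK (o : 𝓞 S.K) : D.c0 * o ∈ S.boxBK := fun v _ _ =>
  ⟨1, fun h => v.isPrime.ne_top ((Ideal.eq_top_iff_one _).mpr h), by
    rw [one_mul]; exact D.three_dvd_c0_mul o⟩

theorem M₁_dvd_trace_c0_mul (z : 𝓞 S.K) :
    (D.M₁ : ℤ) ∣ Algebra.trace ℤ (𝓞 S.K) (D.c0 * z) := by
  obtain ⟨r, hr⟩ := S.three_dvd_trace_deltaK_mul z
  refine ⟨r, ?_⟩
  rw [show D.c0 * z = ((3 * D.d9 : ℕ) : ℤ) • (S.deltaK * z) by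
    rw [c0, zsmul_eq_mul]; push_cast; ring, map_zsmul, hr, smul_eq_mul, ← D.nine_mul_d9]
  push_cast
  ring

theorem c0_mul_mem_boxAK (z : 𝓞 S.K) : D.c0 * z ∈ D.boxAK := fun o => by
  rw [mul_assoc]; exact D.M₁_dvd_trace_c0_mul _

theorem intValuation_eq_one_of_good {v : HeightOneSpectrum (𝓞 S.K)} (hv : v ∉ badK S) :
    v.intValuation S.deltaK = 1 ∧ v.intValuation D.tK = 1 ∧ v.intValuation (D.M₁ : 𝓞 S.K) = 1 := by
  have hm : v.intValuation (S.m : 𝓞 S.K) = 1 := v.intValuation_eq_one_iff.mpr hv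
  have hd : v.intValuation S.deltaK = 1 := v.intValuation_eq_one_iff.mpr fun h => hv (by
    obtain ⟨c, hc⟩ := Setup.three_dvd_m (S := S)
    show (S.m : 𝓞 S.K) ∈ v.asIdeal
    rw [hc, Nat.cast_mul]
    refine Ideal.mul_mem_right _ _ ?_
    rw [show ((3 : ℕ) : 𝓞 S.K) = -(S.deltaK * S.deltaK) by rw [S.deltaK_sq]; norm_num]
    exact neg_mem (Ideal.mul_mem_left _ _ h))
  refine ⟨hd, ?_, ?_⟩
  · rw [tK, map_mul, map_pow, hd, hm, one_pow, one_mul]
  · rw [Level.M₁, Nat.cast_pow, map_pow, hm, one_pow]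

/-- `√-3` or `d9` lies in every bad place. -/
theorem intValuation_bad_lt {v : HeightOneSpectrum (𝓞 S.K)} (hv : v ∈ badK S) :
    v.intValuation (S.deltaK * (D.d9 : 𝓞 S.K)) < 1 := by
  rw [v.intValuation_lt_one_iff_mem]
  have h : (D.M₁ : 𝓞 S.K) ∈ v.asIdeal := by
    rw [Level.M₁, Nat.cast_pow]
    exact Ideal.pow_mem_of_mem _ hv _ (by have := D.two_le; omega)
  rw [show (D.M₁ : 𝓞 S.K) = (S.deltaK * (D.d9 : 𝓞 S.K)) * (-3 * S.deltaK) by
    rw [← D.nine_mul_d9]; push_cast; linear_combination (3 * (D.d9 : 𝓞 S.K)) * S.deltaK_sq] at h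
  refine (v.isPrime.mem_or_mem h).elim id fun h3 => ?_
  refine Ideal.mul_mem_right _ _ ((v.isPrime.mem_or_mem h3).elim (fun h4 => ?_) id)
  rw [← S.deltaK_sq] at h4
  exact (v.isPrime.mem_or_mem h4).elim id id

theorem eventually_tB : ∀ᶠ v in Filter.cofinite, Valued.v (crt D.nK D.nK_ne_zero D.tK 1 v) = 1 := by
  filter_upwards [eventually_nExp D.nK_ne_zero] with v hv
  rw [crt_apply, if_pos hv, Nat.cast_one, map_one]

theorem crt_tK_ne_zero (v : HeightOneSpectrum (𝓞 S.K)) :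
    crt D.nK D.nK_ne_zero D.tK 1 v ≠ 0 := by
  rw [crt_apply]
  split_ifs
  · simp
  · exact (map_ne_zero _).mpr (RingOfIntegers.coe_ne_zero_iff.mpr D.tK_ne_zero)

/-- The translation as an idele, trivial at the good places. -/
def tB : (Adf S.K)ˣ :=
  (FiniteAdeleRing.isUnit_iff.mpr ⟨D.crt_tK_ne_zero, D.eventually_tB⟩).unit

theorem valued_tB (v : HeightOneSpectrum (𝓞 S.K)) :
    Valued.v ((D.tB : Adf S.K) v) = v.intValuation D.tK := by
  rw [tB, IsUnit.unit_spec, crt_apply]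
  split_ifs with h
  · rw [Nat.cast_one, map_one, (D.intValuation_eq_one_of_good fun hb => D.nExp_ne_zero hb h).2.1]
  · rw [LT.valued_loc, HeightOneSpectrum.valuation_of_algebraMap]

theorem tB_apply_good {v : HeightOneSpectrum (𝓞 S.K)} (hv : v ∉ badK S) :
    (D.tB : Adf S.K) v = 1 := by
  rw [tB, IsUnit.unit_spec, crt_apply, if_pos (D.nExp_eq_zero hv), Nat.cast_one]

theorem tB_integral : (D.tB : Adf S.K) ∈ smallAdeles (0 : HeightOneSpectrum (𝓞 S.K) → ℕ) :=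
  fun v => by simpa [valued_tB] using v.intValuation_le_one D.tK

theorem isNearOne_of_mem {k : GAf S.K} (hk : k ∈ congrSubgroup (D.levelIdeal S.K)) :
    IsNearOne (nExp D.nK) k := by
  have key : ∀ u ∈ congrSubgroup (D.levelIdeal S.K), ∀ i j,
      (u : GAf S.K) i j - (1 : Matrix (Fin 2) (Fin 2) (Adf S.K)) i j ∈ smallAdeles (nExp D.nK) := by
    intro u hu i j
    obtain ⟨k₀, rfl, hk₀⟩ := exists_entries_of_mem_congr hu
    obtain ⟨r, hr⟩ := hk₀ i j
    have e : (Matrix.GeneralLinearGroup.map intToAdele k₀ : GAf S.K) i j -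
        (1 : Matrix (Fin 2) (Fin 2) (Adf S.K)) i j = (D.lvl : Adf S.K) * intToAdele r := by
      rw [← map_natCast (intToAdele (K := S.K)) D.lvl, ← map_mul, ← hr, map_sub,
        Matrix.GeneralLinearGroup.map_apply]
      congr 1
      rcases eq_or_ne i j with rfl | h
      · simp
      · simp [h]
    rw [e]
    refine LT.mul_mem_smallAdeles ?_ fun v => le_trans (r v).2 (by simp)
    have h := (rat_small_iff D.nK_ne_zero D.nK).mpr dvd_rfl
    simpa using h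
  exact ⟨key k hk, key k⁻¹ (inv_mem hk)⟩

end Setup.Level

end FermatAgent.LTG

end
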