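import Mathlib
import Fermat.Agent.LT.General.Interface
import Fermat.Agent.LT.General.Classical.Level
import Fermat.Agent.LT.General.Spectral.Line

set_option autoImplicit false

/-!
# The invariance of a form of the type of the box group on `K`
-/

noncomputable section

open NumberField IsDedekindDomain WithZero
open FermatAgent.LT (XInf Adf GAf IntAd intToAdele congrSubgroup upperTri smallAdeles IsNearOne loc
  IsCuspFn adelicChar HasExpansion diagW)
open FermatAgent.LT.Descended (nExp valued_nExp rat_small_iff rat_int_small exists_redA RedA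
  IsUnitId IsIntGL isIntGL_of_entries isIntGL_upperTri)

namespace FermatAgent.LTG

namespace Setup.Level

variable {S : Setup} (D : S.Level)

/-- The functions of the level which have the type of the box group on `K`. -/
structure IsBoxTyped (φ : XInf S.K → GAf S.K → ℂ) : Prop where
  cusp : IsCuspFn (D.levelIdeal S.K) φ
  chi : ∀ M ∈ D.boxK.resSet, ∀ x g, φ x (g * D.boxK.lift M) = D.boxK.chi M * φ x g

/-- The translation as a matrix. -/
def tMat : GAf S.K := upperTri D.tB 0 1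

theorem smallAdeles_c0_le : smallAdeles (nExp D.nK) ≤ smallAdeles (nExp D.c0) :=
  LT.smallAdeles_anti D.nExp_c0_le

variable {D} {φ : XInf S.K → GAf S.K → ℂ} (h : D.IsBoxTyped φ)
include h

/-- The translations by the upper box act by the character. -/
theorem IsBoxTyped.apply_upper {b : 𝓞 S.K} (hb : b ∈ S.boxBK) (x : XInf S.K) (g : GAf S.K) :
    φ x (g * upperTri 1 (algebraMap S.K (Adf S.K) (b : S.K)) 1) =
      ratChar D.M₁ (Algebra.trace ℤ (𝓞 S.K) b) * φ x g := by
  have hM : D.boxK.resMat 0 b 0 0 ∈ D.boxK.resSet :=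
    ⟨0, zero_mem _, b, hb, 0, zero_mem _, 0, zero_mem _, rfl⟩
  have h1 := h.chi _ hM x g
  rw [D.boxK.apply_lift h.cusp.level (D.boxK.isLiftOf_upper b),
    D.boxK.chi_resMat D.M₁_dvd_lvl hb] at h1
  rw [← h1, LT.map_upperTri]
  simp only [map_one]
  rfl

/-- The diagonal box acts trivially. -/
theorem IsBoxTyped.apply_diag {η : (Adf S.K)ˣ} (hη : IsUnitId η)
    (h1 : (η : Adf S.K) - 1 ∈ smallAdeles (nExp D.c0)) (x : XInf S.K) (g : GAf S.K) :
    φ x (g * upperTri η 0 1) = φ x g := by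
  obtain ⟨u, hu⟩ := LT.exists_intUnit η hη
  obtain ⟨o, ho⟩ := D.boxK.exists_int_congr (pow_ne_zero _ S.m_ne_zero) (u : IntAd S.K)
  have hoA : o - 1 ∈ D.boxAK := by
    have hd : (η : Adf S.K) - algebraMap S.K (Adf S.K) (o : S.K) ∈ smallAdeles (nExp D.c0) := by
      refine D.smallAdeles_c0_le ?_
      obtain ⟨r, hr⟩ := Box.natCast_dvd_of_mem ho
      have e : (η : Adf S.K) - algebraMap S.K (Adf S.K) (o : S.K) =
          algebraMap S.K (Adf S.K) (D.nK : S.K) * intToAdele r := by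
        have h2 := congrArg intToAdele hr
        rw [map_sub, intToAdele_intDiag, map_mul, map_natCast] at h2
        rw [← hu]
        simpa using h2
      rw [e]
      exact LT.mul_mem_smallAdeles ((rat_small_iff D.nK_ne_zero _).mpr dvd_rfl) fun v =>
        le_trans (r v).2 (by simp)
    obtain ⟨z, hz⟩ : D.c0 ∣ o - 1 := (rat_small_iff D.c0_ne_zero _).mp (by
      have := sub_mem h1 hd
      rw [sub_sub_sub_cancel_left] at this
      simpa using this)
    rw [hz]
    exact D.c0_mul_mem_boxAK z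
  have hM : D.boxK.resMat (o - 1) 0 0 0 ∈ D.boxK.resSet :=
    ⟨o - 1, hoA, 0, zero_mem _, 0, zero_mem _, 0, zero_mem _, rfl⟩
  have h2 := h.chi _ hM x g
  rw [D.boxK.apply_lift h.cusp.level (D.boxK.isLiftOf_diag u o ho),
    D.boxK.chi_resMat D.M₁_dvd_lvl (zero_mem _), map_zero, ratChar_zero, one_mul] at h2
  rw [← h2, LT.map_upperTri]
  simp only [map_zero, map_one]
  rw [← hu]

/-- The upper translations by multiples of `c₀` act trivially. -/
theorem IsBoxTyped.apply_upper_small {z : Adf S.K}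
    (hz : z ∈ smallAdeles (0 : HeightOneSpectrum (𝓞 S.K) → ℕ)) (x : XInf S.K) (g : GAf S.K) :
    φ x (g * upperTri 1 (algebraMap S.K (Adf S.K) (D.c0 : S.K) * z) 1) = φ x g := by
  obtain ⟨r, hr⟩ := exists_redA D.nK_ne_zero hz
  obtain ⟨o, rfl⟩ := Ideal.Quotient.mk_surjective r
  have hd := hr o rfl
  have hs : algebraMap S.K (Adf S.K) (D.c0 : S.K) * (z - algebraMap S.K (Adf S.K) (o : S.K)) ∈
      smallAdeles (nExp D.nK) := by
    rw [mul_comm]
    exact LT.mul_mem_smallAdeles hd (rat_int_small _)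
  have e : upperTri 1 (algebraMap S.K (Adf S.K) (D.c0 : S.K) * z) 1 =
      upperTri 1 (algebraMap S.K (Adf S.K) ((D.c0 * o : 𝓞 S.K) : S.K)) 1 *
        upperTri 1 (algebraMap S.K (Adf S.K) (D.c0 : S.K) *
          (z - algebraMap S.K (Adf S.K) (o : S.K))) 1 := by
    rw [LT.upperTri_mul]
    simp [mul_sub]
  rw [e, ← mul_assoc, h.cusp.level _ ((LT.isNearOne_upperUni hs).mem_congrSubgroup D.isLevelExp_nExp),
    h.apply_upper (D.c0_mul_mem_boxBK o),
    ratChar_eq_of_dvd_sub (t := 0) (by rw [sub_zero]; exact D.M₁_dvd_trace_c0_mul o), ratChar_zero,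
    one_mul]

omit h in
/-- The conjugate by the translation of a matrix near one is integral. -/
theorem isIntGL_conj_tMat {k : GAf S.K} (hk : IsNearOne (nExp D.nK) k) :
    IsIntGL (D.tMat⁻¹ * k * D.tMat) ∧
      ∃ z ∈ smallAdeles (0 : HeightOneSpectrum (𝓞 S.K) → ℕ),
        ((D.tB⁻¹ : (Adf S.K)ˣ) : Adf S.K) * k 0 1 = algebraMap S.K (Adf S.K) (D.c0 : S.K) * z := by
  have hz : ∀ {c : GAf S.K}, (∀ i j, c i j - (1 : Matrix (Fin 2) (Fin 2) (Adf S.K)) i j ∈
      smallAdeles (nExp D.nK)) → ∃ z ∈ smallAdeles (0 : HeightOneSpectrum (𝓞 S.K) → ℕ),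
        ((D.tB⁻¹ : (Adf S.K)ˣ) : Adf S.K) * c 0 1 = algebraMap S.K (Adf S.K) (D.c0 : S.K) * z := by
    intro c hc
    have h01 : c 0 1 ∈ smallAdeles (nExp D.nK) := by simpa using hc 0 1
    set cu : (Adf S.K)ˣ := Units.map (algebraMap S.K (Adf S.K)).toMonoidHom
      (Units.mk0 (D.c0 : S.K) (RingOfIntegers.coe_ne_zero_iff.mpr D.c0_ne_zero))
    refine ⟨((cu⁻¹ * D.tB⁻¹ : (Adf S.K)ˣ) : Adf S.K) * c 0 1, fun v => ?_, ?_⟩
    · have h1 : ((cu⁻¹ * D.tB⁻¹ : (Adf S.K)ˣ) : Adf S.K) v * ((D.tB : Adf S.K) v * (cu : Adf S.K) v) =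
          1 := by
        rw [← LT.adele_mul_apply, ← LT.adele_mul_apply, ← Units.val_mul, ← Units.val_mul,
          show cu⁻¹ * D.tB⁻¹ * (D.tB * cu) = 1 by group]
        rfl
      rw [LT.adele_mul_apply, eq_inv_of_mul_eq_one_left h1, map_mul, map_inv₀, map_mul, valued_tB,
        show (cu : Adf S.K) v = loc v (D.c0 : S.K) from rfl, LT.valued_loc,
        HeightOneSpectrum.valuation_of_algebraMap, ← map_mul, mul_comm D.tK, D.c0_mul_tK,
        Valuation.map_neg, valued_nExp D.nK_ne_zero, Pi.zero_apply, Nat.cast_zero, neg_zero,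
        exp_zero]
      exact inv_mul_le_one_of_le₀ (h01 v) zero_le
    · rw [← mul_assoc, show algebraMap S.K (Adf S.K) (D.c0 : S.K) *
        ((cu⁻¹ * D.tB⁻¹ : (Adf S.K)ˣ) : Adf S.K) = ((D.tB⁻¹ : (Adf S.K)ˣ) : Adf S.K) by
        rw [show algebraMap S.K (Adf S.K) (D.c0 : S.K) = ((cu : (Adf S.K)ˣ) : Adf S.K) from rfl,
          ← Units.val_mul, mul_inv_cancel_left]]
  have key : ∀ {c : GAf S.K}, (∀ i j, c i j - (1 : Matrix (Fin 2) (Fin 2) (Adf S.K)) i j ∈
      smallAdeles (nExp D.nK)) →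
      ∀ i j, (D.tMat⁻¹ * c * D.tMat : GAf S.K) i j ∈
        smallAdeles (0 : HeightOneSpectrum (𝓞 S.K) → ℕ) := by
    intro c hc i j
    obtain ⟨z, hz0, hz1⟩ := hz hc
    have hint : ∀ i j, c i j ∈ smallAdeles (0 : HeightOneSpectrum (𝓞 S.K) → ℕ) := fun i j => by
      have h1 : (1 : Matrix (Fin 2) (Fin 2) (Adf S.K)) i j ∈
          smallAdeles (0 : HeightOneSpectrum (𝓞 S.K) → ℕ) := by
        rw [Matrix.one_apply]
        split_ifs
        exacts [LT.one_mem_smallAdeles_zero, zero_mem _]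
      simpa using add_mem (LT.smallAdeles_anti (e := (0 : HeightOneSpectrum (𝓞 S.K) → ℕ))
        (fun v => Nat.zero_le _) (hc i j)) h1
    have h01 : ((D.tB⁻¹ : (Adf S.K)ˣ) : Adf S.K) * c 0 1 ∈
        smallAdeles (0 : HeightOneSpectrum (𝓞 S.K) → ℕ) := by
      rw [hz1, mul_comm]
      exact LT.mul_mem_smallAdeles hz0 (rat_int_small _)
    have h10 := LT.mul_mem_smallAdeles (hint 1 0) D.tB_integral
    rw [tMat, LT.upperTri_inv]
    simp only [Matrix.GeneralLinearGroup.coe_mul, Matrix.mul_apply, Fin.sum_univ_two]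
    fin_cases i <;> fin_cases j <;> simp [upperTri, h01, h10, hint]
    rw [mul_right_comm, Units.inv_mul, one_mul]
    exact hint 0 0
  refine ⟨isIntGL_of_entries (key hk.1) ?_, hz hk.1⟩
  rw [show (D.tMat⁻¹ * k * D.tMat)⁻¹ = D.tMat⁻¹ * k⁻¹ * D.tMat by group]
  exact key hk.2

/-- The translated form is invariant near one. -/
theorem IsBoxTyped.near {k : GAf S.K} (hk : IsNearOne (nExp D.nK) k) {s : Adf S.K}
    (hs : s ∈ smallAdeles (0 : HeightOneSpectrum (𝓞 S.K) → ℕ)) (x : XInf S.K) (g : GAf S.K) :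
    φ x (g * k * D.tMat * upperTri 1 s 1) = φ x (g * D.tMat * upperTri 1 s 1) := by
  obtain ⟨hK2, z, hz, hz1⟩ := isIntGL_conj_tMat (D := D) hk
  set K2 : GAf S.K := D.tMat⁻¹ * k * D.tMat with hK2d
  set y : Adf S.K := algebraMap S.K (Adf S.K) (D.c0 : S.K) * z with hy
  have hy0 : y ∈ smallAdeles (0 : HeightOneSpectrum (𝓞 S.K) → ℕ) := by
    rw [hy, mul_comm]; exact LT.mul_mem_smallAdeles hz (rat_int_small _)
  have hone : IsUnitId (1 : (Adf S.K)ˣ) := fun v => by
    rw [Units.val_one, LT.adele_one_apply, map_one]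
  set K3 : GAf S.K := upperTri 1 (-y) 1 * K2 with hK3
  have hK3' : IsNearOne (nExp D.nK) K3 := by
    have hint : IsIntGL K3 := (isIntGL_upperTri hone hone (neg_mem hy0)).mul hK2
    have h1 := (IsIntGL.isNearOne_inv_mul (g := 1) (g' := K3) (e := nExp D.nK)
      (LT.Descended.redG_one D.nK_ne_zero).1 hint fun i j => ?_)
    · rwa [inv_one, one_mul] at h1
    have h00 := hk.1 0 0
    have h01 := hk.1 0 1
    have h10 := hk.1 1 0
    have h11 := hk.1 1 1
    simp only [Matrix.one_apply_eq, ne_eq, zero_ne_one, not_false_eq_true, Matrix.one_apply_ne,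
      one_ne_zero, sub_zero] at h00 h01 h10 h11
    have e1 : ∀ i j, K2 i j =
        !![k 0 0, y; k 1 0 * (D.tB : Adf S.K), k 1 1] i j := by
      intro i j
      rw [hK2d, tMat, LT.upperTri_inv]
      simp only [Matrix.GeneralLinearGroup.coe_mul, Matrix.mul_apply, Fin.sum_univ_two]
      fin_cases i <;> fin_cases j <;> simp [upperTri, ← hz1]
      rw [mul_right_comm, Units.inv_mul, one_mul]
    have hyt : y * (D.tB : Adf S.K) = k 0 1 := by
      rw [← hz1, mul_right_comm, Units.inv_mul, one_mul]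
    have e2 : ∀ i j, K3 i j =
        !![k 0 0 - k 0 1 * k 1 0, y * (1 - k 1 1); k 1 0 * (D.tB : Adf S.K), k 1 1] i j := by
      intro i j
      rw [hK3]
      simp only [Matrix.GeneralLinearGroup.coe_mul, Matrix.mul_apply, Fin.sum_univ_two, e1]
      fin_cases i <;> fin_cases j <;> simp [upperTri]
      · rw [← hyt]; ring
      · ring
    rw [e2]
    have h10' := LT.mul_mem_smallAdeles h10 D.tB_integral
    have h00' : k 0 0 - k 0 1 * k 1 0 - 1 ∈ smallAdeles (nExp D.nK) := by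
      rw [sub_right_comm]
      exact sub_mem h00 (LT.mul_mem_smallAdeles h01
        (LT.smallAdeles_anti (e := (0 : HeightOneSpectrum (𝓞 S.K) → ℕ)) (fun v => Nat.zero_le _) h10))
    have h01' : y * (1 - k 1 1) ∈ smallAdeles (nExp D.nK) := by
      rw [mul_comm, ← neg_sub, neg_mul]
      exact neg_mem (LT.mul_mem_smallAdeles h11 hy0)
    fin_cases i <;> fin_cases j <;> simp [h00', h01', h10', h11]
  have hconj := (isIntGL_upperTri hone hone hs).conj_near hK3'
  have e : g * k * D.tMat * upperTri 1 s 1 = g * D.tMat * upperTri 1 s 1 * upperTri 1 y 1 *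
      ((upperTri 1 s 1)⁻¹ * K3 * upperTri 1 s 1) := by
    have e3 : upperTri 1 s 1 * upperTri 1 y 1 = (upperTri 1 y 1 * upperTri 1 s 1 : GAf S.K) := by
      rw [LT.upperTri_mul, LT.upperTri_mul]
      simp [add_comm]
    have e4 : upperTri 1 (-y) 1 = ((upperTri 1 y 1)⁻¹ : GAf S.K) := by
      refine eq_inv_of_mul_eq_one_left ?_
      rw [LT.upperTri_mul]
      simp [LT.upperTri_one]
    rw [mul_assoc (g * D.tMat), e3, hK3, hK2d, e4]
    group
  rw [e, h.cusp.level _ (hconj.mem_congrSubgroup D.isLevelExp_nExp), hy, h.apply_upper_small hz]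

/-- A nonzero coefficient times the level lies in the dual of the integers. -/
theorem IsBoxTyped.inDual_nK_mul {W : GAf S.K → ℂ} (hW : HasExpansion φ W) {a : (Adf S.K)ˣ}
    (ha : diagW W a ≠ 0) : S.InDual ((a : Adf S.K) * algebraMap S.K (Adf S.K) (D.nK : S.K)) := by
  refine Setup.inDual_of_char fun o => ?_
  rw [mul_assoc, ← map_mul, ← map_mul]
  set b : Adf S.K := algebraMap S.K (Adf S.K) ((D.nK * o : 𝓞 S.K) : S.K) with hb
  have hbk : upperTri 1 b 1 ∈ congrSubgroup (D.levelIdeal S.K) :=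
    (LT.isNearOne_upperUni ((rat_small_iff D.nK_ne_zero _).mpr (dvd_mul_right _ _))).mem_congrSubgroup
      D.isLevelExp_nExp
  have h1 := LT.coeff_upperUni D.levelK_ne_bot hW h.cusp.rational h.cusp.level
    ((a : Adf S.K) * b) (upperTri a 0 1)
  have e : upperTri 1 ((a : Adf S.K) * b) 1 * upperTri a 0 1 =
      (upperTri a 0 1 * upperTri 1 b 1 : GAf S.K) := by
    rw [LT.upperTri_mul, LT.upperTri_mul]; simp
  rw [e, hW.mul_right (c := 1) (fun x g => by rw [h.cusp.level _ hbk, one_mul]), one_mul] at h1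
  exact mul_right_cancel₀ ha (h1.trans (one_mul _).symm)

/-- The valuations of the support: at the bad places those of `1/M₁`, integral elsewhere. -/
theorem IsBoxTyped.valued_of_ne_zero {W : GAf S.K → ℂ} (hW : HasExpansion φ W) {a : (Adf S.K)ˣ}
    (ha : diagW W a ≠ 0) (v : HeightOneSpectrum (𝓞 S.K)) :
    Valued.v ((a : Adf S.K) v) * v.intValuation (D.M₁ : 𝓞 S.K) ≤ 1 ∧
      (v ∈ badK S → Valued.v ((a : Adf S.K) v) * v.intValuation (D.M₁ : 𝓞 S.K) = 1) := by
  by_cases hv : v ∈ badK S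
  swap
  · refine ⟨?_, fun h => absurd h hv⟩
    obtain ⟨hd, -, hM⟩ := D.intValuation_eq_one_of_good hv
    have h1 := Setup.inDual_iff.mp (h.inDual_nK_mul hW ha) v
    rw [hd, one_mul, LT.adele_mul_apply, LT.adele_algebraMap_apply, map_mul, LT.valued_loc,
      HeightOneSpectrum.valuation_of_algebraMap, valued_nExp D.nK_ne_zero, D.nExp_eq_zero hv,
      Nat.cast_zero, neg_zero, exp_zero, mul_one] at h1
    rwa [hM, mul_one]
  suffices he : Valued.v ((a : Adf S.K) v) * v.intValuation (D.M₁ : 𝓞 S.K) = 1 from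
    ⟨he.le, fun _ => he⟩
  set c : Adf S.K := algebraMap S.K (Adf S.K) ((D.M₁ : S.K)⁻¹) with hc
  have hrel : S.InDual ((((a : Adf S.K) + c)) * 3) := by
    refine Setup.inDual_of_char fun o => ?_
    set b : 𝓞 S.K := 3 * o with hb
    have h1 := LT.coeff_upperUni D.levelK_ne_bot hW h.cusp.rational h.cusp.level
      ((a : Adf S.K) * algebraMap S.K (Adf S.K) (b : S.K)) (upperTri a 0 1)
    have e : upperTri 1 ((a : Adf S.K) * algebraMap S.K (Adf S.K) (b : S.K)) 1 * upperTri a 0 1 =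
        (upperTri a 0 1 * upperTri 1 (algebraMap S.K (Adf S.K) (b : S.K)) 1 : GAf S.K) := by
      rw [LT.upperTri_mul, LT.upperTri_mul]; simp
    rw [e, hW.mul_right (fun x g => h.apply_upper (Setup.three_mul_mem_boxBK o) x g), ← mul_assoc]
      at h1
    have h2 := mul_right_cancel₀ ha (h1.trans (one_mul _).symm)
    have e2 : ratChar D.M₁ (Algebra.trace ℤ (𝓞 S.K) b) =
        adelicChar (c * algebraMap S.K (Adf S.K) (b : S.K)) := by
      rw [hc, ← map_mul, LT.adelicChar_rat, ratChar, LT.phaseInf_eq_exp_trace]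
      have hb2 : (D.M₁ : S.K)⁻¹ * (b : S.K) = ((D.M₁ : ℚ)⁻¹) • (b : S.K) := by
        rw [Algebra.smul_def, map_inv₀, map_natCast]
      rw [hb2, map_smul, show Algebra.trace ℚ S.K (b : S.K) =
        ((Algebra.trace ℤ (𝓞 S.K) b : ℤ) : ℚ) from
          Algebra.trace_localization (Rₘ := ℚ) (Sₘ := S.K) ℤ (nonZeroDivisors ℤ) b, smul_eq_mul]
      congr 1
      push_cast
      ring
    rw [e2, ← AddChar.map_add_eq_mul, ← add_mul] at h2
    rw [← h2]
    congr 1
    rw [hb]
    push_cast [map_mul, map_ofNat]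
    ring
  have h1 := Setup.inDual_iff.mp hrel v
  rw [LT.adele_mul_apply, LT.adele_add_apply, map_mul, ← map_ofNat (algebraMap S.K (Adf S.K)) 3,
    LT.adele_algebraMap_apply] at h1
  have hM0 : (D.M₁ : 𝓞 S.K) ≠ 0 := Nat.cast_ne_zero.mpr (pow_ne_zero _ S.m_ne_zero)
  have hcv : Valued.v (loc v ((D.M₁ : S.K)⁻¹)) * v.intValuation (D.M₁ : 𝓞 S.K) = 1 := by
    rw [map_inv₀, map_inv₀, show (D.M₁ : S.K) = ((D.M₁ : 𝓞 S.K) : S.K) by simp, LT.valued_loc,
      HeightOneSpectrum.valuation_of_algebraMap, inv_mul_cancel₀ (v.intValuation_ne_zero _ hM0)]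
  have hlt : Valued.v ((a : Adf S.K) v + loc v ((D.M₁ : S.K)⁻¹)) <
      Valued.v (loc v ((D.M₁ : S.K)⁻¹)) := by
    refine lt_of_mul_lt_mul_right (a := v.intValuation (D.M₁ : 𝓞 S.K)) ?_ zero_le
    rw [hcv, show (D.M₁ : 𝓞 S.K) = (S.deltaK * 3) * (-(S.deltaK * (D.d9 : 𝓞 S.K))) by
      rw [← D.nine_mul_d9]; push_cast; linear_combination 3 * (D.d9 : 𝓞 S.K) * S.deltaK_sq,
      map_mul, Valuation.map_neg, map_mul v.intValuation S.deltaK 3, ← mul_assoc]
    refine lt_of_le_of_lt (mul_le_mul_left ?_ _) (by rw [one_mul]; exact D.intValuation_bad_lt hv)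
    rw [mul_comm, mul_assoc]
    refine le_of_eq_of_le ?_ h1
    rw [show ((algebraMap S.K (Adf S.K)) (OfNat.ofNat 3 : S.K)) v = loc v ((3 : 𝓞 S.K) : S.K) by
      rw [LT.adele_algebraMap_apply]
      rfl, LT.valued_loc, HeightOneSpectrum.valuation_of_algebraMap]
    ac_rfl
  rw [← hcv]
  congr 1
  have h3 := Valuation.map_eq_of_sub_lt Valued.v (x := -loc v ((D.M₁ : S.K)⁻¹))
    (y := (a : Adf S.K) v) (by rwa [sub_neg_eq_add, Valuation.map_neg])
  rw [h3, Valuation.map_neg]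

end Setup.Level

end FermatAgent.LTG

end
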