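import Mathlib
import Fermat.Agent.LT.General.Classical.Invariant
import Fermat.Agent.LT.Descent.Classical.Sph
import Fermat.Agent.LT.Descent.Classical.Hecke

set_option autoImplicit false
set_option linter.unusedSectionVars false

/-!
# The twisted and averaged descended form, supported on frequencies prime to `m`
-/

noncomputable section

open NumberField IsDedekindDomain WithZero
open FermatAgent.LT (XInf Adf GAf IntAd congrSubgroup upperTri smallAdeles IsNearOne loc atPlace
  IsCuspFn adelicChar HasExpansion diagW IsEigenAt rationalMat)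
open FermatAgent.LT.Descended (nExp valued_nExp rat_small_iff rat_int_small exists_redA RedA
  IsUnitId IsIntGL crt crt_apply redA_crt exists_unitId redA_one redA_zero redG_upperTri RedG)

namespace FermatAgent.LTG

namespace Setup.Level

variable {S : Setup} (D : S.Level)

/-- What is used of the translated form. -/
structure IsDepleted (ψ : XInf S.K → GAf S.K → ℂ) (W : GAf S.K → ℂ) : Prop where
  cusp : IsCuspFn (D.levelIdeal S.K) ψ
  expansion : HasExpansion ψ W
  unit_inv : ∀ η : (Adf S.K)ˣ, IsUnitId η → ∀ x g, ψ x (g * upperTri η 0 1) = ψ x g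
  supp : ∀ a, diagW W a ≠ 0 → ∀ v : HeightOneSpectrum (𝓞 S.K),
    Valued.v ((a : Adf S.K) v) * v.intValuation (D.nK * S.deltaK) ≤ 1 ∧
      (v ∈ badK S → Valued.v ((a : Adf S.K) v) * v.intValuation (D.nK * S.deltaK) = 1)
  ne_zero : ∃ a, diagW W a ≠ 0

/-- The residue ring of the level. -/
abbrev ResK : Type := 𝓞 S.K ⧸ Ideal.span {D.nK}

instance instFiniteResK : Finite D.ResK :=
  Ideal.finiteQuotientOfFreeOfNeBot _ (by simpa [Ideal.span_singleton_eq_bot] using D.nK_ne_zero)

instance instFintypeResK : Fintype D.ResK := Fintype.ofFinite _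

instance instFintypeResKUnits : Fintype D.ResKˣ := Fintype.ofFinite _

/-- A unit idele with given residue. -/
def kId (u : D.ResKˣ) : (Adf S.K)ˣ := (exists_unitId D.nK_ne_zero u).choose

theorem isUnitId_kId (u : D.ResKˣ) : IsUnitId (D.kId u) :=
  (exists_unitId D.nK_ne_zero u).choose_spec.1

theorem redA_kId (u : D.ResKˣ) : RedA D.nK (D.kId u : Adf S.K) u :=
  (exists_unitId D.nK_ne_zero u).choose_spec.2.1

theorem kId_apply_of_good (u : D.ResKˣ) {v : HeightOneSpectrum (𝓞 S.K)} (hv : v ∉ badK S) :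
    (D.kId u : Adf S.K) v = 1 :=
  (exists_unitId D.nK_ne_zero u).choose_spec.2.2 v (D.nExp_eq_zero hv)

/-- An integral adele with given residue, zero at the good places. -/
def sAd (s : D.ResK) : Adf S.K :=
  crt D.nK D.nK_ne_zero (Ideal.Quotient.mk_surjective s).choose 0

theorem redA_sAd (s : D.ResK) : RedA D.nK (D.sAd s) s := by
  have h := redA_crt D.nK_ne_zero (Ideal.Quotient.mk_surjective s).choose 0
  rwa [(Ideal.Quotient.mk_surjective s).choose_spec] at h

theorem sAd_apply_of_good (s : D.ResK) {v : HeightOneSpectrum (𝓞 S.K)} (hv : v ∉ badK S) :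
    D.sAd s v = 0 := by
  rw [sAd, crt_apply, if_pos (D.nExp_eq_zero hv), Nat.cast_zero]

/-- The translations. -/
def rMat (p : D.ResKˣ × D.ResK) : GAf S.K :=
  upperTri (D.kId p.1) 0 1 * D.tMat * upperTri 1 (D.sAd p.2) 1

/-- The translated form, for a chosen idele `a₀` of the support. -/
def dep (φ : XInf S.K → GAf S.K → ℂ) (a₀ : (Adf S.K)ˣ) (x : XInf S.K) (g : GAf S.K) : ℂ :=
  ∑ p, adelicChar ((a₀ : Adf S.K) * D.sAd p.2) * φ x (g * D.rMat p)

/-- Its coefficient function. -/
def wDep (W : GAf S.K → ℂ) (a₀ : (Adf S.K)ˣ) (g : GAf S.K) : ℂ :=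
  ∑ p, adelicChar ((a₀ : Adf S.K) * D.sAd p.2) * W (g * D.rMat p)

theorem expansion_dep {φ : XInf S.K → GAf S.K → ℂ} {W : GAf S.K → ℂ} (hW : HasExpansion φ W)
    (a₀ : (Adf S.K)ˣ) : HasExpansion (D.dep φ a₀) (D.wDep W a₀) :=
  HasExpansion.sum Finset.univ fun _ => (hW.comp_mul_right _).const_mul _

variable {D} {φ : XInf S.K → GAf S.K → ℂ} (h : D.IsBoxTyped φ) {W : GAf S.K → ℂ}
  (hW : HasExpansion φ W)
include h

theorem IsBoxTyped.dep_rMat_near {k : GAf S.K} (hk : IsNearOne (nExp D.nK) k)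
    (p : D.ResKˣ × D.ResK) (x : XInf S.K) (g : GAf S.K) :
    φ x (g * k * D.rMat p) = φ x (g * D.rMat p) := by
  have hu : IsIntGL (upperTri (D.kId p.1) (0 : Adf S.K) 1) :=
    LT.Descended.isIntGL_upperTri (D.isUnitId_kId p.1)
      (fun v => by rw [Units.val_one, LT.adele_one_apply, map_one]) (zero_mem _)
  have hc := hu.conj_near hk
  simp only [rMat, ← mul_assoc]
  rw [show g * k * upperTri (D.kId p.1) 0 1 = g * upperTri (D.kId p.1) 0 1 *
    ((upperTri (D.kId p.1) 0 1)⁻¹ * k * upperTri (D.kId p.1) 0 1) by group]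
  exact h.near hc (D.redA_sAd p.2).integral x _

theorem IsBoxTyped.dep_near {k : GAf S.K} (hk : IsNearOne (nExp D.nK) k) (a₀ : (Adf S.K)ˣ)
    (x : XInf S.K) (g : GAf S.K) : D.dep φ a₀ x (g * k) = D.dep φ a₀ x g :=
  Finset.sum_congr rfl fun p _ => by rw [h.dep_rMat_near hk]

include hW in
theorem IsBoxTyped.cusp_dep (a₀ : (Adf S.K)ˣ) : IsCuspFn (D.levelIdeal S.K) (D.dep φ a₀) := by
  refine ⟨fun γ x g => ?_, fun b x g => ?_, fun k hk x g => h.dep_near (D.isNearOne_of_mem hk) _ _ _,
    fun g => ?_, ?_, fun w x g => ?_, D.wDep W a₀, D.expansion_dep hW a₀⟩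
  · exact Finset.sum_congr rfl fun p _ => by rw [mul_assoc (rationalMat γ), h.cusp.rational]
  · refine Finset.sum_congr rfl fun p _ => ?_
    rw [mul_assoc g, ← Subgroup.mem_center_iff.mp (upperTri_scalar_mem_center b), ← mul_assoc g,
      h.cusp.central]
  · exact continuous_finsetSum _ fun p _ => continuous_const.mul (h.cusp.continuous _)
  · obtain ⟨C, hC⟩ := h.cusp.bounded
    refine ⟨∑ p : D.ResKˣ × D.ResK, ‖adelicChar ((a₀ : Adf S.K) * D.sAd p.2)‖ * C,
      fun x g => (norm_sum_le _ _).trans (Finset.sum_le_sum fun p _ => ?_)⟩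
    rw [norm_mul]
    exact mul_le_mul_of_nonneg_left (hC _ _) (norm_nonneg _)
  · let _ := Classical.decEq (InfinitePlace S.K)
    refine LT.H3.IsSph0.sum Finset.univ
      (f := fun p P => adelicChar ((a₀ : Adf S.K) * D.sAd p.2) *
        φ (Function.update x w P) (g * D.rMat p))
      (fun p _ => ?_) (fun p _ => ?_) (fun p _ => ?_)
    · exact continuous_const.mul ((h.cusp.continuous _).comp
        (continuous_const.update w continuous_id))
    · obtain ⟨C, hC⟩ := h.cusp.bounded
      exact ⟨‖adelicChar ((a₀ : Adf S.K) * D.sAd p.2)‖ * C, fun P => by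
        rw [norm_mul]; exact mul_le_mul_of_nonneg_left (hC _ _) (norm_nonneg _)⟩
    · exact (h.cusp.sph0 w x _).const_mul _

/-- The translated form is invariant under the diagonal units. -/
theorem IsBoxTyped.dep_unit (a₀ : (Adf S.K)ˣ) {η : (Adf S.K)ˣ} (hη : IsUnitId η) (x : XInf S.K)
    (g : GAf S.K) : D.dep φ a₀ x (g * upperTri η 0 1) = D.dep φ a₀ x g := by
  have hn := D.nK_ne_zero
  obtain ⟨r, hr⟩ := exists_redA hn hη.integral
  obtain ⟨r', hr'⟩ := exists_redA hn hη.inv.integral
  have hrr : r * r' = 1 := (hr.mul hn hr').unique hn (by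
    rw [← Units.val_mul, mul_inv_cancel, Units.val_one]; exact redA_one hn)
  set ru : D.ResKˣ := ⟨r, r', hrr, by rw [mul_comm]; exact hrr⟩
  refine Fintype.sum_equiv ((Equiv.mulLeft ru).prodCongr (Equiv.refl _)) _ _ fun p => ?_
  show _ = adelicChar ((a₀ : Adf S.K) * D.sAd p.2) * φ x (g * D.rMat (ru * p.1, p.2))
  congr 1
  have hone : IsUnitId (1 : (Adf S.K)ˣ) := fun v => by
    rw [Units.val_one, LT.adele_one_apply, map_one]
  have hred : ∀ η' : (Adf S.K)ˣ, IsUnitId η' → RedA D.nK (η' : Adf S.K) ((ru * p.1 : D.ResKˣ)) →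
      RedG D.nK (upperTri η' 0 1) (upperTri (ru * p.1) 0 1) := fun η' h1 h2 =>
    redG_upperTri hn h1 hone h2 (redA_zero hn) (by simpa using redA_one hn)
  have hnear := (hred _ (D.isUnitId_kId (ru * p.1)) (D.redA_kId (ru * p.1))).near
    (hred _ (hη.mul (D.isUnitId_kId p.1)) (by
      rw [Units.val_mul, Units.val_mul]; exact hr.mul hn (D.redA_kId p.1)))
  have e : g * upperTri η 0 1 * D.rMat p = g * upperTri (D.kId (ru * p.1)) 0 1 *
      ((upperTri (D.kId (ru * p.1)) 0 1)⁻¹ * upperTri (η * D.kId p.1) 0 1) * D.tMat *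
        upperTri 1 (D.sAd p.2) 1 := by
    rw [rMat, show upperTri (η * D.kId p.1) (0 : Adf S.K) 1 =
      upperTri η 0 1 * upperTri (D.kId p.1) 0 1 by rw [LT.upperTri_mul]; simp]
    group
  rw [e, h.near hnear (D.redA_sAd p.2).integral, rMat]
  simp only [← mul_assoc]

theorem IsBoxTyped.eigen_dep {v : HeightOneSpectrum (𝓞 S.K)} (hv : v ∉ badK S) {l : ℂ}
    (hl : IsEigenAt v φ l) (a₀ : (Adf S.K)ˣ) : IsEigenAt v (D.dep φ a₀) l := by
  intro x g
  have : Finite (𝓞 S.K ⧸ v.asIdeal) := Ideal.finiteQuotientOfFreeOfNeBot _ v.ne_bot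
  let _ := Fintype.ofFinite (𝓞 S.K ⧸ v.asIdeal)
  have hgood : ∀ (p : D.ResKˣ × D.ResK) (M : GL (Fin 2) (v.adicCompletion S.K)),
      atPlace v M * D.rMat p = D.rMat p * atPlace v M := by
    intro p M
    have h1 : atPlace v M * upperTri (D.kId p.1) 0 1 = upperTri (D.kId p.1) 0 1 * atPlace v M :=
      atPlace_mul_diag_comm v M (D.kId_apply_of_good p.1 hv)
    have h2 : atPlace v M * D.tMat = D.tMat * atPlace v M :=
      atPlace_mul_diag_comm v M (D.tB_apply_good hv)
    have h3 : atPlace v M * upperTri 1 (D.sAd p.2) 1 = upperTri 1 (D.sAd p.2) 1 * atPlace v M :=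
      LT.Dihedral.atPlace_comm M fun i j => by
        fin_cases i <;> fin_cases j <;>
          simp [upperTri, D.sAd_apply_of_good p.2 hv, LT.adele_zero_apply, LT.adele_one_apply]
    rw [rMat, ← mul_assoc, ← mul_assoc, h1, mul_assoc _ (atPlace v M), h2, ← mul_assoc,
      mul_assoc _ (atPlace v M), h3, ← mul_assoc]
  simp only [LT.heckeT, finsum_eq_sum_of_fintype, dep, mul_assoc g, hgood]
  rw [Finset.sum_comm, ← Finset.sum_add_distrib, Finset.mul_sum]
  refine Finset.sum_congr rfl fun p _ => ?_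
  have h1 := hl x (g * D.rMat p)
  rw [LT.heckeT, finsum_eq_sum_of_fintype] at h1
  rw [← Finset.mul_sum, ← mul_add]
  simp only [← mul_assoc g]
  rw [h1]
  ring

include hW in
open Classical in
/-- The coefficients of the translated form. -/
theorem IsBoxTyped.diagW_dep {a₀ : (Adf S.K)ˣ} (ha₀ : diagW W a₀ ≠ 0) (a : (Adf S.K)ˣ) :
    diagW (D.wDep W a₀) a = (Fintype.card D.ResK : ℂ) * ∑ u : D.ResKˣ,
      if S.InDual (((a * D.kId u * D.tB : (Adf S.K)ˣ) : Adf S.K) - a₀) then
        diagW W (a * D.kId u * D.tB) else 0 := by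
  have hterm : ∀ p : D.ResKˣ × D.ResK, W (upperTri a 0 1 * D.rMat p) =
      adelicChar (-(((a * D.kId p.1 * D.tB : (Adf S.K)ˣ) : Adf S.K) * D.sAd p.2)) *
        diagW W (a * D.kId p.1 * D.tB) := by
    intro p
    set b : (Adf S.K)ˣ := a * D.kId p.1 * D.tB with hb
    have e : upperTri a 0 1 * D.rMat p =
        upperTri 1 ((b : Adf S.K) * D.sAd p.2) 1 * upperTri b 0 1 := by
      simp only [rMat, tMat, LT.upperTri_mul, hb]
      simp [mul_assoc]
    have h1 := LT.coeff_upperUni D.levelK_ne_bot hW h.cusp.rational h.cusp.level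
      ((b : Adf S.K) * D.sAd p.2) (upperTri b 0 1)
    rw [e, diagW, ← h1, ← mul_assoc, ← AddChar.map_add_eq_mul, neg_add_cancel,
      AddChar.map_zero_eq_one, one_mul]
  change (∑ p, adelicChar ((a₀ : Adf S.K) * D.sAd p.2) * W (upperTri a 0 1 * D.rMat p)) = _
  simp only [hterm, ← mul_assoc]
  rw [Fintype.sum_prod_type, Finset.mul_sum]
  refine Finset.sum_congr rfl fun u _ => ?_
  set b : (Adf S.K)ˣ := a * D.kId u * D.tB with hb
  show ∑ s : D.ResK, adelicChar ((a₀ : Adf S.K) * D.sAd s) *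
    adelicChar (-((b : Adf S.K) * D.sAd s)) * diagW W b = _
  rw [← Finset.sum_mul]
  rcases eq_or_ne (diagW W b) 0 with h0 | h0
  · simp [h0]
  set d : Adf S.K := (b : Adf S.K) - a₀ with hd
  have hdn : ∀ {y : Adf S.K}, y ∈ smallAdeles (nExp D.nK) → adelicChar (d * y) = 1 := by
    intro y hy
    refine Setup.InDual.char_eq_one ?_
    have hdn' : S.InDual (d * algebraMap S.K (Adf S.K) (D.nK : S.K)) := by
      rw [hd, sub_mul]
      exact (h.inDual_nK_mul hW h0).sub (h.inDual_nK_mul hW ha₀)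
    rw [Setup.inDual_iff] at hdn' ⊢
    intro v
    refine le_trans ?_ (hdn' v)
    rw [LT.adele_mul_apply, LT.adele_mul_apply, map_mul, map_mul, LT.adele_algebraMap_apply,
      LT.valued_loc v (D.nK : S.K), HeightOneSpectrum.valuation_of_algebraMap,
      valued_nExp D.nK_ne_zero]
    exact mul_le_mul' le_rfl (mul_le_mul' le_rfl (hy v))
  let χ : AddChar D.ResK ℂ :=
    { toFun := fun s => adelicChar (-(d * D.sAd s))
      map_zero_eq_one' := by
        have h1 := (D.redA_sAd 0).sub_small (redA_zero D.nK_ne_zero)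
        rw [sub_zero] at h1
        show adelicChar _ = 1
        rw [← mul_neg]
        exact hdn (neg_mem h1)
      map_add_eq_mul' := fun s t => by
        have h1 := (D.redA_sAd (s + t)).sub_small ((D.redA_sAd s).add D.nK_ne_zero (D.redA_sAd t))
        show adelicChar _ = adelicChar _ * adelicChar _
        rw [← AddChar.map_add_eq_mul, show -(d * D.sAd (s + t)) =
          d * -(D.sAd (s + t) - (D.sAd s + D.sAd t)) + (-(d * D.sAd s) + -(d * D.sAd t)) by ring,
          AddChar.map_add_eq_mul, hdn (neg_mem h1), one_mul] }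
  have hχ : χ = 0 ↔ S.InDual d := by
    constructor
    · intro hx
      refine Setup.inDual_of_char fun o => ?_
      have h1 : adelicChar (-(d * D.sAd (-(Ideal.Quotient.mk _ o : D.ResK)))) = 1 :=
        DFunLike.congr_fun hx _
      have h2 := hdn ((D.redA_sAd (-(Ideal.Quotient.mk _ o : D.ResK))).sub_small
        (r := -(Ideal.Quotient.mk _ o)) (y := algebraMap S.K (Adf S.K) ((-o : 𝓞 S.K) : S.K))
        (by rw [← map_neg]; exact LT.Descended.redA_rat D.nK_ne_zero _))
      have h3 : d * algebraMap S.K (Adf S.K) (o : S.K) =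
          -(d * D.sAd (-(Ideal.Quotient.mk _ o : D.ResK))) +
            d * (D.sAd (-(Ideal.Quotient.mk _ o : D.ResK)) -
              algebraMap S.K (Adf S.K) ((-o : 𝓞 S.K) : S.K)) := by
        rw [show ((-o : 𝓞 S.K) : S.K) = -(o : S.K) by simp, map_neg]
        ring
      rw [h3, AddChar.map_add_eq_mul, h1, h2, one_mul]
    · intro hx
      refine AddChar.ext _ _ fun s => ?_
      show adelicChar (-(d * D.sAd s)) = 1
      exact ((hx.mul_int (D.redA_sAd s).integral).neg).char_eq_one
  have hsum : ∑ s : D.ResK, adelicChar ((a₀ : Adf S.K) * D.sAd s) *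
      adelicChar (-((b : Adf S.K) * D.sAd s)) = if S.InDual d then (Fintype.card D.ResK : ℂ) else 0 := by
    have e : ∀ s, adelicChar ((a₀ : Adf S.K) * D.sAd s) *
        adelicChar (-((b : Adf S.K) * D.sAd s)) = χ s := fun s => by
      show _ = adelicChar _
      rw [← AddChar.map_add_eq_mul, hd]
      congr 1
      ring
    rw [Finset.sum_congr rfl fun s _ => e s, AddChar.sum_eq_ite]
    simp only [hχ]
  rw [hsum]
  split_ifs <;> simp

include hW in
/-- **The translated form.** -/
theorem IsBoxTyped.isDepleted {a₀ : (Adf S.K)ˣ} (ha₀ : diagW W a₀ ≠ 0) :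
    D.IsDepleted (D.dep φ a₀) (D.wDep W a₀) := by
  classical
  refine ⟨h.cusp_dep hW a₀, D.expansion_dep hW a₀, fun η hη x g => h.dep_unit a₀ hη x g,
    fun a ha v => ?_, ?_⟩
  · rw [h.diagW_dep hW ha₀] at ha
    obtain ⟨u, -, hu⟩ := Finset.exists_ne_zero_of_sum_ne_zero (right_ne_zero_of_mul ha)
    rw [ite_ne_right_iff] at hu
    have hb := h.valued_of_ne_zero hW hu.2 v
    rw [Units.val_mul, Units.val_mul, LT.adele_mul_apply, LT.adele_mul_apply, map_mul, map_mul,
      D.isUnitId_kId, D.valued_tB, mul_one, mul_assoc, ← map_mul] at hb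
    have e : D.nK * S.deltaK = D.tK * (D.M₁ : 𝓞 S.K) := by
      linear_combination S.deltaK * D.c0_mul_tK - D.tK * D.c0_mul_delta
    rwa [e]
  · refine ⟨a₀ * D.tB⁻¹, ?_⟩
    rw [h.diagW_dep hW ha₀]
    have hb : ∀ u : D.ResKˣ, a₀ * D.tB⁻¹ * D.kId u * D.tB = a₀ * D.kId u := fun u => by
      rw [mul_right_comm a₀, inv_mul_cancel_right]
    simp only [hb]
    have hval : ∀ u : D.ResKˣ, S.InDual (((a₀ * D.kId u : (Adf S.K)ˣ) : Adf S.K) - a₀) →
        diagW W (a₀ * D.kId u) = diagW W a₀ := by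
      intro u hu
      have hsmall : (D.kId u : Adf S.K) - 1 ∈ smallAdeles (nExp D.c0) := by
        intro v
        rw [← valued_nExp D.c0_ne_zero]
        have h1 := Setup.inDual_iff.mp hu v
        rw [Units.val_mul, show (a₀ : Adf S.K) * (D.kId u : Adf S.K) - a₀ =
          (a₀ : Adf S.K) * ((D.kId u : Adf S.K) - 1) by ring, LT.adele_mul_apply, map_mul] at h1
        by_cases hv : v ∈ badK S
        · have h2 := (h.valued_of_ne_zero hW ha₀ v).2 hv
          have hMc : v.intValuation (D.M₁ : 𝓞 S.K) =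
              v.intValuation D.c0 * v.intValuation S.deltaK := by
            rw [← map_mul, D.c0_mul_delta, Valuation.map_neg]
          rw [hMc] at h2
          have hpos : 0 < v.intValuation S.deltaK * Valued.v ((a₀ : Adf S.K) v) :=
            zero_lt_iff.mpr (mul_ne_zero (v.intValuation_ne_zero _ S.deltaK_ne_zero)
              ((Valuation.ne_zero_iff _).mpr ((FiniteAdeleRing.isUnit_iff.mp a₀.isUnit).1 v)))
          refine le_of_mul_le_mul_left ?_ hpos
          rw [mul_assoc]
          refine h1.trans (le_of_eq ?_)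
          rw [← h2]
          ac_rfl
        · rw [show v.intValuation D.c0 = 1 from v.intValuation_eq_one_iff.mpr fun hc =>
            hv ((D.nK_mem_iff v).mp (Ideal.mem_of_dvd _ D.c0_dvd hc)),
            LT.adele_sub_apply, D.kId_apply_of_good u hv, LT.adele_one_apply, sub_self, map_zero]
          exact zero_le
      have e : upperTri (a₀ * D.kId u) (0 : Adf S.K) 1 =
          upperTri a₀ 0 1 * upperTri (D.kId u) 0 1 := by rw [LT.upperTri_mul]; simp
      rw [diagW, e, hW.mul_right (c := 1)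
        (fun x g => by rw [h.apply_diag (D.isUnitId_kId u) hsmall, one_mul]), one_mul]
      rfl
    rw [Finset.sum_congr rfl fun u _ => ite_congr rfl (hval u) fun _ => rfl, ← Finset.sum_filter,
      Finset.sum_const, nsmul_eq_mul]
    have h1 : S.InDual (((a₀ * D.kId 1 : (Adf S.K)ˣ) : Adf S.K) - a₀) := by
      have hk := (D.redA_kId 1).sub_small (by simpa using redA_one D.nK_ne_zero)
      rw [Units.val_mul, show (a₀ : Adf S.K) * (D.kId 1 : Adf S.K) - a₀ =
          (a₀ : Adf S.K) * ((D.kId 1 : Adf S.K) - 1) by ring, Setup.inDual_iff]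
      intro v
      refine le_trans ?_ (Setup.inDual_iff.mp (h.inDual_nK_mul hW ha₀) v)
      rw [LT.adele_mul_apply, LT.adele_mul_apply, map_mul, map_mul, LT.adele_algebraMap_apply,
        LT.valued_loc v (D.nK : S.K), HeightOneSpectrum.valuation_of_algebraMap,
        valued_nExp D.nK_ne_zero]
      exact mul_le_mul' le_rfl (mul_le_mul' le_rfl (hk v))
    exact mul_ne_zero (Nat.cast_ne_zero.mpr Fintype.card_ne_zero) (mul_ne_zero
      (Nat.cast_ne_zero.mpr (Finset.card_ne_zero_of_mem
        (Finset.mem_filter.mpr ⟨Finset.mem_univ _, h1⟩))) ha₀)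

/-- A nonzero coefficient. -/
theorem IsBoxTyped.exists_ne_zero (h0 : φ ≠ 0) (hW : HasExpansion φ W) :
    ∃ a₀ : (Adf S.K)ˣ, diagW W a₀ ≠ 0 := by
  by_contra hcon
  push Not at hcon
  exact h0 (eq_zero_of_diagW D.levelK_ne_bot h.cusp hW hcon)

end Setup.Level

end FermatAgent.LTG

end
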