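import Mathlib
import Fermat.Agent.LT.General.Classical.Deplete
import Fermat.Agent.LT.Descent.Classical.Mult
import Fermat.Agent.LT.Base.Expansion

set_option autoImplicit false
set_option linter.unusedSectionVars false

/-!
# The coefficients at the Eisenstein integers
-/

noncomputable section

open NumberField IsDedekindDomain WithZero
open scoped Classical
open Complex (normSq)
open FermatAgent.LT (XInf Adf GAf EisInt omega upperTri loc HasExpansion IsCuspFn IsEigenAt diagW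
  ideleAt ideleAt_self ideleAt_of_ne piLoc pi deltaE coe_deltaE waveProd)
open FermatAgent.LT.Descended (nExp IsUnitId HeckeRec)

namespace FermatAgent.LTG

namespace ToBianchi

variable (S : Setup)

/-- The place of a prime Eisenstein integer. -/
def placeOf (π : EisInt) (hπ : Prime π) : HeightOneSpectrum (𝓞 S.K) :=
  ⟨Ideal.span {S.eK π},
    (Ideal.span_singleton_prime ((map_ne_zero_iff _ S.eK.injective).mpr hπ.ne_zero)).mpr
      ((MulEquiv.prime_iff S.eK.toMulEquiv).mpr hπ),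
    by simpa using (map_ne_zero_iff _ S.eK.injective).mpr hπ.ne_zero⟩

theorem eK_mem_placeOf {π : EisInt} (hπ : Prime π) (x : EisInt) :
    S.eK x ∈ (placeOf S π hπ).asIdeal ↔ π ∣ x := by
  change S.eK x ∈ Ideal.span {S.eK π} ↔ _
  rw [Ideal.mem_span_singleton, map_dvd_iff]

theorem natCast_mem_placeOf {π : EisInt} (hπ : Prime π) (n : ℕ) :
    (n : 𝓞 S.K) ∈ (placeOf S π hπ).asIdeal ↔ π ∣ (n : EisInt) := by
  rw [← eK_mem_placeOf S hπ, S.eK_natCast]

theorem norm_emb_sq (x : S.K) : ‖S.emb x‖ ^ 2 = |(Algebra.norm ℚ x : ℝ)| := by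
  have h := InfinitePlace.prod_eq_abs_norm x
  rw [Fintype.prod_unique,
    InfinitePlace.IsComplex.mult_eq_two (IsTotallyComplex.isComplex _)] at h
  rw [← Rat.cast_abs, ← h, ← InfinitePlace.norm_embedding_eq]
  rfl

theorem normSq_eq_natAbs_norm (x : EisInt) :
    normSq (x : ℂ) = ((Algebra.norm ℤ (S.eK x)).natAbs : ℝ) := by
  rw [Complex.normSq_eq_norm_sq, ← S.emb_eK x, norm_emb_sq, ← Algebra.coe_norm_int,
    Nat.cast_natAbs, Int.cast_abs]
  push_cast
  rfl

theorem absNorm_placeOf {π : EisInt} (hπ : Prime π) :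
    (Ideal.absNorm (placeOf S π hπ).asIdeal : ℝ) = normSq (π : ℂ) := by
  rw [normSq_eq_natAbs_norm S π]
  congr 1
  exact Ideal.absNorm_span_singleton _

theorem sqrt_absNorm_placeOf {π : EisInt} (hπ : Prime π) :
    Real.sqrt (Ideal.absNorm (placeOf S π hπ).asIdeal) = ‖(π : ℂ)‖ := by
  rw [absNorm_placeOf, Complex.normSq_eq_norm_sq, Real.sqrt_sq (norm_nonneg _)]

/-- Rational numbers as ideles. -/
def ratId (ν : S.Kˣ) : (Adf S.K)ˣ := Units.map (algebraMap S.K (Adf S.K)).toMonoidHom ν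

theorem ratId_apply (ν : S.Kˣ) (v : HeightOneSpectrum (𝓞 S.K)) :
    (ratId S ν : Adf S.K) v = loc v (ν : S.K) := rfl

theorem valued_int (v : HeightOneSpectrum (𝓞 S.K)) (o : 𝓞 S.K) :
    Valued.v (loc v (o : S.K)) = v.intValuation o := by
  rw [LT.valued_loc, HeightOneSpectrum.valuation_of_algebraMap]

include S in
theorem isPID_eisInt : IsPrincipalIdealRing EisInt :=
  IsPrincipalIdealRing.of_surjective S.eK.symm.toRingHom S.eK.symm.surjective

variable {S} (D : S.Level)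

/-- The frequency of an Eisenstein integer. -/
def nu' (x : EisInt) : S.K := (S.eK x : S.K) / ((D.nK : S.K) * (S.deltaK : S.K))

theorem den_ne_zero : (D.nK : S.K) * (S.deltaK : S.K) ≠ 0 :=
  mul_ne_zero (RingOfIntegers.coe_ne_zero_iff.mpr D.nK_ne_zero) S.deltaK_coe_ne_zero

theorem nu'_eq_zero_iff (x : EisInt) : nu' D x = 0 ↔ x = 0 := by
  rw [nu', div_eq_zero_iff, or_iff_left (den_ne_zero D), RingOfIntegers.coe_eq_zero_iff,
    map_eq_zero_iff _ S.eK.injective]

theorem nu'_mul (π x : EisInt) : nu' D (π * x) = (S.eK π : S.K) * nu' D x := by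
  simp [nu', mul_div_assoc]

theorem emb_nu' (x : EisInt) :
    S.emb (nu' D x) = (x : ℂ) / ((D.lvl : ℂ) * (1 + 2 * omega)) := by
  rw [nu', map_div₀, map_mul, S.emb_eK, Setup.deltaK, S.emb_eK, coe_deltaE]
  simp

theorem nu'_injective : Function.Injective (nu' D) := fun x y h => by
  rw [nu', nu', div_left_inj' (den_ne_zero D)] at h
  exact S.eK.injective (RingOfIntegers.coe_injective h)

theorem valued_nu' (v : HeightOneSpectrum (𝓞 S.K)) (x : EisInt) :
    Valued.v (loc v (nu' D x)) * v.intValuation (D.nK * S.deltaK) = v.intValuation (S.eK x) := by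
  have h0 : v.intValuation (D.nK * S.deltaK) ≠ 0 :=
    v.intValuation_ne_zero _ (mul_ne_zero D.nK_ne_zero S.deltaK_ne_zero)
  rw [nu', map_div₀, map_div₀, ← map_mul (algebraMap (𝓞 S.K) S.K), valued_int, valued_int,
    div_mul_cancel₀ _ h0]

/-- The coefficient at a rational frequency. -/
def vK (W : GAf S.K → ℂ) (ν : S.K) : ℂ :=
  if h : ν = 0 then 0 else diagW W (ratId S (Units.mk0 ν h))

theorem vK_zero (W : GAf S.K → ℂ) : vK W (0 : S.K) = 0 := dif_pos rfl

theorem vK_of_ne {W : GAf S.K → ℂ} {ν : S.K} (h : ν ≠ 0) :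
    vK W ν = diagW W (ratId S (Units.mk0 ν h)) := dif_neg h

theorem vK_coe (W : GAf S.K → ℂ) (ν : S.Kˣ) : vK W (ν : S.K) = diagW W (ratId S ν) := by
  rw [vK_of_ne ν.ne_zero, Units.mk0_val]

/-- The unnormalised classical coefficient. -/
def dCoef (W : GAf S.K → ℂ) (x : EisInt) : ℂ := (‖S.emb (nu' D x)‖ : ℂ) * vK W (nu' D x)

/-- The eigenvalue at a place. -/
def eigVal {T : Finset ℕ} {φ : XInf S.K → GAf S.K → ℂ} (h : IsDescended S D T φ)
    (v : HeightOneSpectrum (𝓞 S.K)) : ℝ :=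
  if hv : (S.m : 𝓞 S.K) ∈ v.asIdeal then 0 else (h.eigen v hv).choose

/-- The eigenvalue at a prime. -/
def eigPi {T : Finset ℕ} {φ : XInf S.K → GAf S.K → ℂ} (h : IsDescended S D T φ) (π : EisInt) : ℝ :=
  if hπ : Prime π then eigVal D h (placeOf S π hπ) else 0

variable {D} {ψ : XInf S.K → GAf S.K → ℂ} {W : GAf S.K → ℂ} (h : D.IsDepleted ψ W)
include h

theorem diagW_mul_unit (a : (Adf S.K)ˣ) {η : (Adf S.K)ˣ} (hη : IsUnitId η) :
    diagW W (a * η) = diagW W a := by
  rw [diagW, show upperTri (a * η) (0 : Adf S.K) 1 = upperTri a 0 1 * upperTri η 0 1 by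
    rw [LT.upperTri_mul]; simp,
    h.expansion.mul_right (c := 1) (fun x g => by rw [h.unit_inv η hη, one_mul]), one_mul]
  rfl

theorem diagW_congr_valued {a a' : (Adf S.K)ˣ}
    (hv : ∀ v : HeightOneSpectrum (𝓞 S.K),
      Valued.v ((a : Adf S.K) v) = Valued.v ((a' : Adf S.K) v)) :
    diagW W a = diagW W a' := by
  have hη : IsUnitId (a⁻¹ * a') := fun v => by
    have h1 : ((a⁻¹ : (Adf S.K)ˣ) : Adf S.K) v * (a : Adf S.K) v = 1 := by
      rw [← LT.adele_mul_apply, Units.inv_mul, LT.adele_one_apply]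
    rw [Units.val_mul, LT.adele_mul_apply, map_mul, ← hv v, ← map_mul, h1, map_one]
  rw [← diagW_mul_unit h a hη, mul_inv_cancel_left]

/-- Nonvanishing coefficients have frequencies in `(N √-3)⁻¹ O`. -/
theorem exists_nu'_of_ne_zero {ν : S.K} (hne : vK W ν ≠ 0) : ∃ x : EisInt, nu' D x = ν := by
  have hν : ν ≠ 0 := fun h0 => hne (by rw [h0, vK_zero])
  rw [vK_of_ne hν] at hne
  obtain ⟨o, ho⟩ := HeightOneSpectrum.mem_integers_of_valuation_le_one S.K
      (ν * ((D.nK * S.deltaK : 𝓞 S.K) : S.K)) fun v => by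
    rw [map_mul, HeightOneSpectrum.valuation_of_algebraMap, ← LT.valued_loc]
    exact (h.supp _ hne v).1
  obtain ⟨x, rfl⟩ := S.eK.surjective o
  refine ⟨x, ?_⟩
  rw [nu', RingOfIntegers.coe_eq_algebraMap (S.eK x), ho,
    RingOfIntegers.coe_eq_algebraMap (D.nK * S.deltaK), map_mul]
  exact mul_div_cancel_right₀ _ (den_ne_zero D)

theorem dCoef_unit (u : EisIntˣ) (x : EisInt) : dCoef D W (u * x) = dCoef D W x := by
  rcases eq_or_ne x 0 with rfl | hx
  · rw [mul_zero]
  have hu : ‖((u : EisInt) : ℂ)‖ = 1 := by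
    obtain ⟨N, hN⟩ := LT.Period.exists_natCast_normSq (u : EisInt)
    obtain ⟨M, hM⟩ := LT.Period.exists_natCast_normSq ((u⁻¹ : EisIntˣ) : EisInt)
    have h1 := congrArg (fun z : EisInt => normSq (z : ℂ)) (Units.mul_inv u)
    simp only [MulMemClass.coe_mul, OneMemClass.coe_one, map_mul, map_one, hN, hM] at h1
    have hN1 : N = 1 := Nat.eq_one_of_mul_eq_one_right (n := M) (by exact_mod_cast h1)
    rw [Complex.norm_def, hN, hN1]; simp
  have hnx : nu' D x ≠ 0 := mt (nu'_eq_zero_iff D x).mp hx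
  have hux : nu' D (u * x) ≠ 0 := mt (nu'_eq_zero_iff D _).mp (mul_ne_zero u.ne_zero hx)
  rw [dCoef, dCoef, vK_of_ne hux, vK_of_ne hnx]
  congr 1
  · rw [nu'_mul, map_mul, norm_mul, S.emb_eK, hu, one_mul]
  · refine diagW_congr_valued h fun v => ?_
    rw [ratId_apply, ratId_apply, Units.val_mk0, Units.val_mk0, nu'_mul, map_mul, map_mul,
      valued_int, v.intValuation_eq_one_iff.mpr fun hm => v.isPrime.ne_top
        (Ideal.eq_top_of_isUnit_mem _ hm (u.isUnit.map S.eK)), one_mul]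

theorem dCoef_supp (x : EisInt) (hx : ¬ IsCoprime x (D.lvl : EisInt)) : dCoef D W x = 0 := by
  have := isPID_eisInt S
  by_contra hd
  obtain ⟨π, hπx, hπn, hπ⟩ : ∃ π, π ∣ x ∧ π ∣ (D.lvl : EisInt) ∧ Prime π := by
    by_contra hh
    push Not at hh
    refine hx (isCoprime_of_prime_dvd (fun hc => ?_) fun π hπ h1 h2 => hh π h1 h2 hπ)
    exact D.nK_ne_zero (by
      rw [show D.nK = S.eK (D.lvl : EisInt) from (S.eK_natCast _).symm, hc.2, map_zero])
  have hne := right_ne_zero_of_mul hd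
  have hν : nu' D x ≠ 0 := fun h0 => hne (by rw [h0, vK_zero])
  rw [vK_of_ne hν] at hne
  have h1 := (h.supp _ hne (placeOf S π hπ)).2
    ((D.nK_mem_iff _).mp ((natCast_mem_placeOf S hπ _).mpr hπn))
  rw [ratId_apply, Units.val_mk0, valued_nu'] at h1
  exact ((placeOf S π hπ).intValuation_eq_one_iff.mp h1) ((eK_mem_placeOf S hπ x).mpr hπx)

theorem vK_hecke {π : EisInt} (hπ : Prime π)
    (hπn : ¬ (S.m : 𝓞 S.K) ∈ (placeOf S π hπ).asIdeal) {l : ℂ}
    (hl : IsEigenAt (placeOf S π hπ) ψ l) {x : EisInt} (hx : x ≠ 0) :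
    ((‖(π : ℂ)‖ : ℂ) ^ 2) * vK W (nu' D x * (S.eK π : S.K)) +
        vK W (nu' D x / (S.eK π : S.K)) =
      (‖(π : ℂ)‖ : ℂ) * l * vK W (nu' D x) := by
  set v := placeOf S π hπ with hv
  have hπ0 : (S.eK π : S.K) ≠ 0 :=
    RingOfIntegers.coe_ne_zero_iff.mpr ((map_ne_zero_iff _ S.eK.injective).mpr hπ.ne_zero)
  have hν : nu' D x ≠ 0 := mt (nu'_eq_zero_iff D x).mp hx
  set a := ratId S (Units.mk0 (nu' D x) hν) with ha
  have hCT : LT.CharTrivAt v ((a : Adf S.K) v) := charTrivAt_of_le_one (by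
    have h1 := valued_nu' D v x
    obtain ⟨hd, -, -⟩ := D.intValuation_eq_one_of_good (v := v) hπn
    rw [map_mul, hd, LT.Descended.valued_nExp D.nK_ne_zero, D.nExp_eq_zero (v := v) hπn,
      Nat.cast_zero, neg_zero, exp_zero, one_mul, mul_one] at h1
    rw [ha, ratId_apply, Units.val_mk0, h1]
    exact v.intValuation_le_one _)
  have key := coeff_hecke h.cusp h.expansion D.levelK_ne_bot hl hCT
  have hval : ∀ w : HeightOneSpectrum (𝓞 S.K),
      Valued.v ((ideleAt v (piLoc v) : Adf S.K) w) = w.intValuation (S.eK π) := fun w => by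
    rcases eq_or_ne w v with rfl | hw
    · rw [ideleAt_self]
      change Valued.v (loc v (pi v : S.K)) = _
      rw [LT.valued_uniformizer]
      exact (v.intValuation_singleton ((map_ne_zero_iff _ S.eK.injective).mpr hπ.ne_zero) rfl).symm
    · rw [ideleAt_of_ne _ hw, map_one, eq_comm, HeightOneSpectrum.intValuation_eq_one_iff]
      exact fun hm => hw (HeightOneSpectrum.ext (v.isMaximal.eq_of_le w.isPrime.ne_top
        ((Ideal.span_singleton_le_iff_mem _).mpr hm)).symm)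
  have e1 : diagW W (a * ideleAt v (piLoc v)) = vK W (nu' D x * (S.eK π : S.K)) := by
    rw [vK_of_ne (mul_ne_zero hν hπ0)]
    refine diagW_congr_valued h fun w => ?_
    rw [Units.val_mul, LT.adele_mul_apply, map_mul, hval, ha, ratId_apply, ratId_apply,
      Units.val_mk0, Units.val_mk0, map_mul, map_mul, valued_int]
  have e2 : diagW W (a * (ideleAt v (piLoc v))⁻¹) = vK W (nu' D x / (S.eK π : S.K)) := by
    rw [vK_of_ne (div_ne_zero hν hπ0)]
    refine diagW_congr_valued h fun w => ?_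
    have hi : ((ideleAt v (piLoc v))⁻¹ : (Adf S.K)ˣ).val w * (ideleAt v (piLoc v) : Adf S.K) w =
        1 := by rw [← LT.adele_mul_apply, Units.inv_mul, LT.adele_one_apply]
    rw [Units.val_mul, LT.adele_mul_apply, eq_inv_of_mul_eq_one_left hi, map_mul, map_inv₀, hval,
      ha, ratId_apply, ratId_apply, Units.val_mk0, Units.val_mk0, map_div₀, map_div₀, valued_int,
      div_eq_mul_inv]
  rw [e1, e2, sqrt_absNorm_placeOf, ← vK_of_ne hν] at key
  have hN : (Nat.card (𝓞 S.K ⧸ v.asIdeal) : ℂ) = (‖(π : ℂ)‖ : ℂ) ^ 2 := by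
    rw [← Complex.ofReal_pow, ← Complex.normSq_eq_norm_sq, ← absNorm_placeOf S hπ,
      Ideal.absNorm_apply, Submodule.cardQuot_apply, Complex.ofReal_natCast]
  rwa [hN] at key

omit h in
theorem not_mem_bad {π : EisInt} (hπ : Prime π) (hπn : IsCoprime π (D.lvl : EisInt)) :
    ¬ (S.m : 𝓞 S.K) ∈ (placeOf S π hπ).asIdeal := fun hmem =>
  hπ.not_isUnit (hπn.isUnit_of_dvd' dvd_rfl
    ((natCast_mem_placeOf S hπ _).mp ((D.nK_mem_iff _).mpr hmem)))

theorem heckeRec {T : Finset ℕ} {φ : XInf S.K → GAf S.K → ℂ} (hd : IsDescended S D T φ)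
    (heig : ∀ (v : HeightOneSpectrum (𝓞 S.K)) (l : ℂ), (S.m : 𝓞 S.K) ∉ v.asIdeal →
      IsEigenAt v φ l → IsEigenAt v ψ l) :
    HeckeRec (D.lvl : EisInt) (dCoef D W) (eigPi D hd) where
  zero := by rw [dCoef, (nu'_eq_zero_iff D 0).mpr rfl, vK_zero, mul_zero]
  unit := dCoef_unit h
  supp := dCoef_supp h
  rec_one π hπ hπn μ hμ := by
    have hv := not_mem_bad (D := D) hπ hπn
    have hl : IsEigenAt (placeOf S π hπ) ψ (eigPi D hd π : ℂ) := by
      rw [eigPi, dif_pos hπ, eigVal, dif_neg hv]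
      exact heig _ _ hv (hd.eigen _ hv).choose_spec.1
    rcases eq_or_ne μ 0 with rfl | hμ0
    · exact absurd (dvd_zero π) hμ
    have key := vK_hecke h hπ hv hl hμ0
    have hzero : vK W (nu' D μ / (S.eK π : S.K)) = 0 := by
      by_contra hne
      obtain ⟨y, hy⟩ := exists_nu'_of_ne_zero h hne
      refine hμ ⟨y, nu'_injective D ?_⟩
      rw [nu'_mul, hy, mul_div_cancel₀ _ (RingOfIntegers.coe_ne_zero_iff.mpr
        ((map_ne_zero_iff _ S.eK.injective).mpr hπ.ne_zero))]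
    rw [hzero, add_zero] at key
    have hn0 : (‖(π : ℂ)‖ : ℂ) ≠ 0 := by
      rw [Ne, Complex.ofReal_eq_zero, norm_eq_zero]
      exact fun h0 => hπ.ne_zero (Subtype.ext h0)
    rw [dCoef, dCoef, nu'_mul, map_mul, norm_mul, S.emb_eK, mul_comm (S.eK π : S.K)]
    push_cast
    refine mul_left_cancel₀ hn0 ?_
    linear_combination (‖S.emb (nu' D μ)‖ : ℂ) * key
  rec_two π hπ hπn μ := by
    have hv := not_mem_bad (D := D) hπ hπn
    have hl : IsEigenAt (placeOf S π hπ) ψ (eigPi D hd π : ℂ) := by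
      rw [eigPi, dif_pos hπ, eigVal, dif_neg hv]
      exact heig _ _ hv (hd.eigen _ hv).choose_spec.1
    rcases eq_or_ne μ 0 with rfl | hμ0
    · simp [dCoef, (nu'_eq_zero_iff D 0).mpr rfl, vK_zero]
    have key := vK_hecke h hπ hv hl (mul_ne_zero hπ.ne_zero hμ0)
    have hπ0 : (S.eK π : S.K) ≠ 0 :=
      RingOfIntegers.coe_ne_zero_iff.mpr ((map_ne_zero_iff _ S.eK.injective).mpr hπ.ne_zero)
    rw [nu'_mul, mul_div_cancel_left₀ _ hπ0] at key
    have hn0 : (‖(π : ℂ)‖ : ℂ) ≠ 0 := by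
      rw [Ne, Complex.ofReal_eq_zero, norm_eq_zero]
      exact fun h0 => hπ.ne_zero (Subtype.ext h0)
    rw [dCoef, dCoef, dCoef, nu'_mul D π (π * μ), nu'_mul D π μ, map_mul, map_mul, norm_mul,
      norm_mul, S.emb_eK, mul_comm (S.eK π : S.K) ((S.eK π : S.K) * nu' D μ)]
    push_cast
    refine mul_left_cancel₀ hn0 ?_
    linear_combination (‖(π : ℂ)‖ : ℂ) * (‖S.emb (nu' D μ)‖ : ℂ) * key

theorem exists_same_valuations (a : (Adf S.K)ˣ) :
    ∃ ν : S.Kˣ, ∀ v : HeightOneSpectrum (𝓞 S.K),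
      Valued.v (loc v (ν : S.K)) = Valued.v ((a : Adf S.K) v) := by
  choose g hg using fun v : HeightOneSpectrum (𝓞 S.K) =>
    (IsPrincipalIdealRing.principal v.asIdeal).principal
  have hg0 : ∀ v, (g v : S.K) ≠ 0 := fun v => RingOfIntegers.coe_ne_zero_iff.mpr fun h0 =>
    v.ne_bot (by rw [hg v, h0]; simp)
  have hval : ∀ v w : HeightOneSpectrum (𝓞 S.K),
      Valued.v (loc w (g v : S.K)) = if w = v then exp (-1 : ℤ) else 1 := fun v w => by
    rw [valued_int]
    have hgv : v.asIdeal = Ideal.span {g v} := by rw [hg v, Ideal.submodule_span_eq]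
    split_ifs with hwv
    · subst hwv
      exact w.intValuation_singleton (fun h0 => hg0 w (by simp [h0])) hgv
    · rw [HeightOneSpectrum.intValuation_eq_one_iff]
      exact fun hm => hwv (HeightOneSpectrum.ext (v.isMaximal.eq_of_le w.isPrime.ne_top
        (hgv ▸ (Ideal.span_singleton_le_iff_mem _).mpr hm)).symm)
  have hev := (FiniteAdeleRing.isUnit_iff.mp a.isUnit).2
  rw [Filter.eventually_cofinite] at hev
  refine ⟨Units.mk0 (∏ v ∈ hev.toFinset, (g v : S.K) ^ (-log (Valued.v ((a : Adf S.K) v))))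
    (Finset.prod_ne_zero_iff.mpr fun v _ => zpow_ne_zero _ (hg0 v)), fun w => ?_⟩
  rw [Units.val_mk0, map_prod, map_prod]
  have hterm : ∀ v ∈ hev.toFinset,
      Valued.v (loc w ((g v : S.K) ^ (-log (Valued.v ((a : Adf S.K) v))))) =
        if w = v then Valued.v ((a : Adf S.K) v) else 1 := fun v _ => by
    rw [map_zpow₀, map_zpow₀, hval]
    split_ifs with hwv
    · subst hwv
      rw [← exp_zsmul, smul_eq_mul, show -log (Valued.v ((a : Adf S.K) w)) * -1 =
        log (Valued.v ((a : Adf S.K) w)) by ring]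
      exact exp_log ((Valuation.ne_zero_iff _).mpr ((FiniteAdeleRing.isUnit_iff.mp a.isUnit).1 w))
    · exact one_zpow _
  rw [Finset.prod_congr rfl hterm, Finset.prod_ite_eq]
  split_ifs with hw
  · rfl
  · by_contra hne
    exact hw (hev.mem_toFinset.mpr (Ne.symm hne))

/-- Some coefficient does not vanish. -/
theorem exists_dCoef_ne_zero : ∃ x : EisInt, dCoef D W x ≠ 0 := by
  obtain ⟨a, ha⟩ := h.ne_zero
  obtain ⟨ν, hν⟩ := exists_same_valuations h a
  have hvK : vK W (ν : S.K) ≠ 0 := by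
    rw [vK_coe, diagW_congr_valued h (a' := a) fun v => by rw [ratId_apply, hν]]
    exact ha
  obtain ⟨x, hx⟩ := exists_nu'_of_ne_zero h hvK
  refine ⟨x, ?_⟩
  rw [dCoef, hx]
  refine mul_ne_zero ?_ hvK
  rw [Ne, Complex.ofReal_eq_zero, norm_eq_zero, map_eq_zero]
  exact ν.ne_zero

end ToBianchi

end FermatAgent.LTG

end
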