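import Mathlib
import Fermat.Agent.LT.General.Classical.Coef

set_option autoImplicit false

/-!
# The classical function on `H3 × GL₂(O/N)`: invariance, expansion, cuspidality and decay
-/

noncomputable section

open NumberField IsDedekindDomain WithZero MeasureTheory Set
open scoped Classical Real
open FermatAgent.LT (XInf Adf GAf H3 EisInt eisIdeal redMat diagMat cplxMat omega upperTri loc
  HasExpansion IsCuspFn infAct rationalMat hshift embVec iotaX waveProd smallAdeles)
open FermatAgent.LT.Descended (nExp RedA RedG exists_redG redG_rationalMat redG_upperTri redA_zero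
  redA_one IsUnitId rat_small_iff)

namespace FermatAgent.LTG

namespace ToBianchi

variable {S : Setup} (D : S.Level)

theorem map_eisIdeal : Ideal.span {D.nK} = (eisIdeal D.lvl).map S.eK.toRingHom := by
  rw [eisIdeal, Ideal.map_span, Set.image_singleton]
  exact congrArg (fun x => Ideal.span {x}) (S.eK_natCast D.lvl).symm

/-- The identification of the residue rings. -/
def resEquiv : (EisInt ⧸ eisIdeal D.lvl) ≃+* D.ResK :=
  Ideal.quotientEquiv _ _ S.eK (map_eisIdeal D)

theorem resEquiv_mk (x : EisInt) :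
    resEquiv D (Ideal.Quotient.mk _ x) = Ideal.Quotient.mk _ (S.eK x) := rfl

/-- Residue matrices over the integers of `K`. -/
def toResG : GL (Fin 2) (EisInt ⧸ eisIdeal D.lvl) →* GL (Fin 2) D.ResK :=
  Matrix.GeneralLinearGroup.map (resEquiv D).toRingHom

/-- An integral adelic lift of a residue matrix. -/
def kMat (h : GL (Fin 2) (EisInt ⧸ eisIdeal D.lvl)) : GAf S.K :=
  (exists_redG D.nK_ne_zero (toResG D h)).choose

theorem redG_kMat (h : GL (Fin 2) (EisInt ⧸ eisIdeal D.lvl)) :
    RedG D.nK (kMat D h) (toResG D h) :=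
  (exists_redG D.nK_ne_zero (toResG D h)).choose_spec.1

theorem kMat_apply_of_good (h : GL (Fin 2) (EisInt ⧸ eisIdeal D.lvl))
    {v : HeightOneSpectrum (𝓞 S.K)} (hv : nExp D.nK v = 0) (i j : Fin 2) :
    kMat D h i j v = if i = j then 1 else 0 :=
  (exists_redG D.nK_ne_zero (toResG D h)).choose_spec.2 v i j hv

/-- The classical function, unnormalised. -/
def phiCl (ψ : XInf S.K → GAf S.K → ℂ) (P : H3) (h : GL (Fin 2) (EisInt ⧸ eisIdeal D.lvl)) : ℂ :=
  ψ (fun _ => P) (kMat D h)

theorem toResG_diagMat (d : (EisInt ⧸ eisIdeal D.lvl)ˣ) :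
    toResG D (diagMat d) = upperTri (Units.map (resEquiv D).toRingHom.toMonoidHom d) 0 1 := by
  refine Units.ext (Matrix.ext fun i j => ?_)
  fin_cases i <;> fin_cases j <;>
    simp [toResG, diagMat, upperTri, Matrix.GeneralLinearGroup.map_apply]

theorem waveProd_const (ν : S.K) (P : H3) :
    waveProd ν (fun _ => P) = (‖S.emb ν‖ : ℂ) * H3.wave (S.emb ν) P := by
  rw [waveProd, Fintype.prod_unique]
  rfl

theorem hshift_const (P : H3) (c : InfinitePlace S.K → ℂ) :
    hshift (fun _ => P) c = fun _ => (⟨P.z + c default, P.t, P.t_pos⟩ : H3) := by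
  funext w
  rw [Subsingleton.elim w default]
  exact H3.ext rfl rfl

theorem linearIndependent_basis :
    LinearIndependent ℚ ![(D.nK : S.K),
      (D.nK : S.K) * (S.eK ⟨omega, LT.Period.omega_mem⟩ : S.K)] := by
  refine LinearIndependent.pair_iff.mpr fun s t hst => ?_
  have h1 := congrArg S.emb hst
  rw [map_add, map_zero, Rat.smul_def, Rat.smul_def, map_mul, map_mul, map_mul, map_ratCast,
    map_ratCast, S.emb_eK] at h1
  have hn : S.emb (D.nK : S.K) = (D.lvl : ℂ) := by simp
  rw [hn] at h1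
  have h3 : (D.lvl : ℂ) * ((s : ℂ) + (t : ℂ) * omega) = 0 := by linear_combination h1
  have h4 := (mul_eq_zero.mp h3).resolve_left
    (Nat.cast_ne_zero.mpr (pow_ne_zero _ S.m_ne_zero))
  have him := congrArg Complex.im h4
  have hre := congrArg Complex.re h4
  simp [LT.omega] at him hre
  subst him
  simp at hre
  exact ⟨hre, rfl⟩

/-- The periods `N, N ω`. -/
def perBasis : Module.Basis (Fin 2) ℚ S.K :=
  basisOfLinearIndependentOfCardEqFinrank (linearIndependent_basis D)
    (by rw [Fintype.card_fin, S.finrank_K])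

theorem perBasis_zero : perBasis D 0 = ((D.nK * 1 : 𝓞 S.K) : S.K) := by
  simp [perBasis]

theorem perBasis_one :
    perBasis D 1 = ((D.nK * S.eK ⟨omega, LT.Period.omega_mem⟩ : 𝓞 S.K) : S.K) := by
  simp [perBasis]

theorem iotaX_perBasis (y : Fin 2 → ℝ) :
    iotaX (perBasis D) y default = (D.lvl : ℂ) * ((y 0 : ℂ) + (y 1 : ℂ) * omega) := by
  rw [LT.iotaX_apply, Fin.sum_univ_two, perBasis_zero, perBasis_one]
  change (y 0 : ℂ) * S.emb _ + (y 1 : ℂ) * S.emb _ = _
  rw [RingOfIntegers.coe_eq_algebraMap, RingOfIntegers.coe_eq_algebraMap, map_mul, map_mul, map_mul,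
    map_mul, map_one, map_one, S.emb_eK]
  simp
  ring

theorem integral_box_fin_two (f : ℝ × ℝ → ℂ) :
    ∫ y in LT.Dihedral.boxAt (0 : Fin 2 → ℤ), f (y 0, y 1) =
      ∫ p in Icc (0 : ℝ) 1 ×ˢ Icc (0 : ℝ) 1, f p := by
  have hset : LT.Dihedral.boxAt (0 : Fin 2 → ℤ) =
      (MeasurableEquiv.finTwoArrow (α := ℝ)) ⁻¹' (Ioc (0 : ℝ) 1 ×ˢ Ioc (0 : ℝ) 1) := by
    ext y
    simp [LT.Dihedral.boxAt, Fin.forall_fin_two]
  rw [hset]
  rw [show (fun y : Fin 2 → ℝ => f (y 0, y 1)) =
    fun y => f ((MeasurableEquiv.finTwoArrow (α := ℝ)) y) from rfl,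
    (volume_preserving_finTwoArrow ℝ).setIntegral_preimage_emb
      (MeasurableEquiv.measurableEmbedding _)]
  refine setIntegral_congr_set ?_
  rw [Measure.volume_eq_prod]
  exact Measure.set_prod_ae_eq Ioc_ae_eq_Icc Ioc_ae_eq_Icc

variable {D} {ψ : XInf S.K → GAf S.K → ℂ} {W : GAf S.K → ℂ} (h : D.IsDepleted ψ W)
include h

theorem congr_red {g g' : GAf S.K} {m : GL (Fin 2) D.ResK} (hg : RedG D.nK g m)
    (hg' : RedG D.nK g' m) (x : XInf S.K) : ψ x g = ψ x g' := by
  have := h.cusp.level _ ((hg.near hg').mem_congrSubgroup D.isLevelExp_nExp) x g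
  rw [mul_inv_cancel_left] at this
  exact this.symm

/-- The form is periodic by multiples of the level. -/
theorem periodic {g : GAf S.K} {m : GL (Fin 2) D.ResK} (hg : RedG D.nK g m) (o : 𝓞 S.K)
    (x : XInf S.K) :
    ψ (hshift x (embVec ((D.nK * o : 𝓞 S.K) : S.K))) g = ψ x g := by
  set b : S.K := ((D.nK * o : 𝓞 S.K) : S.K) with hb
  have hsmall : algebraMap S.K (Adf S.K) (-b) ∈ smallAdeles (nExp D.nK) := by
    rw [map_neg]
    exact neg_mem ((rat_small_iff D.nK_ne_zero _).mpr (dvd_mul_right _ _))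
  have hk : LT.IsNearOne (nExp D.nK) (g⁻¹ * rationalMat (upperTri 1 (-b) 1) * g) := by
    rw [LT.rationalMat_upperTri]
    simp only [map_one]
    exact hg.1.conj_near (LT.isNearOne_upperUni hsmall)
  have h1 := h.cusp.rational (upperTri 1 (-b) 1) (hshift x (embVec b)) g
  rw [LT.infAct_upperUni_hshift, LT.hshift_shiftX,
    show embVec b + embVec (-b) = 0 from funext fun w => by simp [LT.embVec_apply], LT.hshift_zero,
    show rationalMat (upperTri 1 (-b) 1) * g = g * (g⁻¹ * rationalMat (upperTri 1 (-b) 1) * g) by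
      group, h.cusp.level _ (hk.mem_congrSubgroup D.isLevelExp_nExp)] at h1
  exact h1.symm

theorem phiCl_invariant (γ : GL (Fin 2) EisInt) (P : H3)
    (m : GL (Fin 2) (EisInt ⧸ eisIdeal D.lvl)) :
    phiCl D ψ (cplxMat γ • P) (redMat _ γ * m) = phiCl D ψ P m := by
  set γK : GL (Fin 2) (𝓞 S.K) := Matrix.GeneralLinearGroup.map S.eK.toRingHom γ with hγK
  set γF : GL (Fin 2) S.K := Matrix.GeneralLinearGroup.map (algebraMap (𝓞 S.K) S.K) γK with hγF
  have hx : (fun _ : InfinitePlace S.K => cplxMat γ • P) = infAct γF (fun _ => P) := by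
    funext w
    rw [LT.infAct]
    congr 1
    refine Units.ext (Matrix.ext fun i j => ?_)
    rw [Matrix.GeneralLinearGroup.map_apply, S.embedding_eq, hγF,
      Matrix.GeneralLinearGroup.map_apply, hγK, Matrix.GeneralLinearGroup.map_apply]
    exact (S.emb_eK (γ i j)).symm
  have hred : RedG D.nK (rationalMat γF * kMat D m) (toResG D (redMat _ γ * m)) := by
    rw [map_mul]
    refine RedG.mul D.nK_ne_zero ?_ (redG_kMat D m)
    have e : toResG D (redMat _ γ) = Matrix.GeneralLinearGroup.map (Ideal.Quotient.mk _) γK := by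
      refine Units.ext (Matrix.ext fun i j => ?_)
      simp [toResG, LT.redMat, hγK, Matrix.GeneralLinearGroup.map_apply, resEquiv_mk]
    rw [e]
    exact redG_rationalMat D.nK_ne_zero γK
  rw [phiCl, phiCl, hx, ← congr_red h hred (redG_kMat D _), h.cusp.rational]

theorem phiCl_scalar (a : (EisInt ⧸ eisIdeal D.lvl)ˣ) (P : H3)
    (m : GL (Fin 2) (EisInt ⧸ eisIdeal D.lvl)) :
    phiCl D ψ P (m * Matrix.GeneralLinearGroup.scalar (Fin 2) a) = phiCl D ψ P m := by
  set a' : D.ResKˣ := Units.map (resEquiv D).toRingHom.toMonoidHom a with ha'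
  have hred : RedG D.nK (kMat D m * upperTri (D.kId a') 0 (D.kId a'))
      (toResG D (m * Matrix.GeneralLinearGroup.scalar (Fin 2) a)) := by
    rw [map_mul, LT.scalar_eq_upperTri, toResG, LT.map_upperTri, map_zero]
    exact (redG_kMat D m).mul D.nK_ne_zero (redG_upperTri D.nK_ne_zero (D.isUnitId_kId a')
      (D.isUnitId_kId a') (D.redA_kId a') (redA_zero D.nK_ne_zero) (D.redA_kId a'))
  rw [phiCl, phiCl, ← congr_red h hred (redG_kMat D _), h.cusp.central]

theorem phiCl_continuous (m : GL (Fin 2) (EisInt ⧸ eisIdeal D.lvl)) :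
    Continuous fun P => phiCl D ψ P m :=
  (h.cusp.continuous _).comp (continuous_pi fun _ => continuous_id)

theorem phiCl_bounded : ∃ C, ∀ P m, ‖phiCl D ψ P m‖ ≤ C := by
  obtain ⟨C, hC⟩ := h.cusp.bounded
  exact ⟨C, fun P m => hC _ _⟩

theorem phiCl_sph0 (m : GL (Fin 2) (EisInt ⧸ eisIdeal D.lvl)) :
    H3.IsSph0 fun P => phiCl D ψ P m := by
  have h0 := h.cusp.sph0 default (fun _ => default) (kMat D m)
  convert h0 using 1
  funext P
  rw [phiCl]
  congr 1
  funext w
  rw [Subsingleton.elim w default, Function.update_self]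

theorem phiCl_periodic (m : GL (Fin 2) (EisInt ⧸ eisIdeal D.lvl)) (j : Fin 2) (x : XInf S.K) :
    ψ (hshift x (embVec (perBasis D j))) (kMat D m) = ψ x (kMat D m) := by
  fin_cases j
  · simp only [Fin.zero_eta, perBasis_zero]
    exact periodic h (redG_kMat D m) 1 x
  · simp only [Fin.mk_one, perBasis_one]
    exact periodic h (redG_kMat D m) _ x

theorem phiCl_box (m : GL (Fin 2) (EisInt ⧸ eisIdeal D.lvl)) (x : XInf S.K) :
    ∫ y in LT.Dihedral.boxAt 0, ψ (hshift x (iotaX (perBasis D) y)) (kMat D m) = 0 :=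
  LT.integral_box_eq_zero_of_expansion (F := fun x => ψ x (kMat D m))
    (fun y => h.expansion y (kMat D m)) (phiCl_periodic h m) x

theorem phiCl_cuspidal (t : ℝ) (ht : 0 < t) (m : GL (Fin 2) (EisInt ⧸ eisIdeal D.lvl)) :
    ∫ xy in Icc (0 : ℝ) 1 ×ˢ Icc (0 : ℝ) 1,
      phiCl D ψ ⟨(D.lvl : ℂ) * (xy.1 + xy.2 * omega), t, ht⟩ m = 0 := by
  rw [← integral_box_fin_two, ← phiCl_box h m fun _ => ⟨0, t, ht⟩]
  refine setIntegral_congr_fun (LT.Dihedral.measurableSet_boxAt 0) fun y _ => ?_
  simp only [phiCl, hshift_const, iotaX_perBasis, zero_add]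

theorem phiCl_expansion (d : (EisInt ⧸ eisIdeal D.lvl)ˣ) (P : H3) :
    HasSum (fun x : EisInt => dCoef D W x *
      H3.wave ((x : ℂ) / ((D.lvl : ℂ) * (1 + 2 * omega))) P)
      (phiCl D ψ P (diagMat d)) := by
  set d' : D.ResKˣ := Units.map (resEquiv D).toRingHom.toMonoidHom d
  have hone : IsUnitId (1 : (Adf S.K)ˣ) := fun v => by
    rw [Units.val_one, LT.adele_one_apply, map_one]
  have e : phiCl D ψ P (diagMat d) = ψ (fun _ => P) (upperTri (D.kId d') 0 1) :=
    congr_red h (by rw [← toResG_diagMat]; exact redG_kMat D _)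
      (redG_upperTri D.nK_ne_zero (D.isUnitId_kId d') hone (D.redA_kId d') (redA_zero D.nK_ne_zero)
        (by simpa using redA_one D.nK_ne_zero)) _
  rw [e]
  have h1 : HasSum (fun ν : S.Kˣ => vK W (ν : S.K) * waveProd (ν : S.K) (fun _ => P))
      (ψ (fun _ => P) (upperTri (D.kId d') 0 1)) := by
    refine (h.expansion (fun _ => P) (upperTri (D.kId d') 0 1)).congr_fun fun ν => ?_
    rw [LT.rationalMat_upperTri, LT.upperTri_mul]
    simp only [map_zero, map_one, zero_mul, mul_zero, add_zero, mul_one]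
    rw [vK_coe, ← diagW_mul_unit h (ratId S ν) (D.isUnitId_kId d')]
    rfl
  have h2 := (LT.hasSum_units_iff (f := fun v : S.K => vK W v * waveProd v (fun _ => P))
    (by rw [vK_zero, zero_mul])).mp h1
  refine ((LT.hasSum_range_iff (f := fun v : S.K => vK W v * waveProd v (fun _ => P))
    (nu'_injective D) fun v hv => ?_).mpr h2).congr_fun fun x => ?_
  · by_contra hne
    exact hv (exists_nu'_of_ne_zero h (left_ne_zero_of_mul hne))
  · rw [waveProd_const, dCoef, ← emb_nu']
    ring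

theorem phiCl_decay (m : GL (Fin 2) (EisInt ⧸ eisIdeal D.lvl)) :
    ∃ C, ∀ P : H3, 1 ≤ P.t → ‖phiCl D ψ P m‖ ≤ C / P.t := by
  have hb := LT.periodicEigen_of (φ := ψ) h.cusp.continuous h.cusp.bounded
    h.cusp.sph0 (phiCl_periodic h m)
  have hzero : ∀ x, LT.coefX (perBasis D) (fun x => ψ x (kMat D m)) 0 x = 0 := fun x => by
    simpa [LT.coefX, LT.BoxFourier.boxCoeff, LT.BoxFourier.phaseVec_zero, LT.torusFn] using phiCl_box h m x
  obtain ⟨C, hC⟩ := LT.exists_coefW_bound hb
  set E : ℝ := 1 / ‖(D.lvl : ℂ) * (1 + 2 * omega)‖ with hE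
  have hden : (D.lvl : ℂ) * (1 + 2 * omega) ≠ 0 :=
    mul_ne_zero (Nat.cast_ne_zero.mpr (pow_ne_zero _ S.m_ne_zero))
      (by rw [← LT.coe_deltaE]; exact fun h0 => LT.deltaE_ne_zero (Subtype.ext h0))
  have hE0 : 0 < E := one_div_pos.mpr (norm_pos_iff.mpr hden)
  have hlow : ∀ k, k ≠ 0 → E ≤ ‖S.emb (LT.freq (perBasis D) k)‖ := by
    intro k hk
    have ht : ∀ j, ∃ i : ℤ, Algebra.trace ℚ S.K (LT.freq (perBasis D) k * perBasis D j) = i :=
      fun j => ⟨k j, by rw [LT.freq, LT.trace_dualVec_mul]⟩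
    obtain ⟨z, hz⟩ := S.exists_deltaK_mul_of_traces
      (y := LT.freq (perBasis D) k * (D.nK : S.K)) fun o => by
        obtain ⟨x, rfl⟩ := S.eK.surjective o
        obtain ⟨a, b, rfl⟩ := LT.Period.exists_eq_eis x
        obtain ⟨i, hi⟩ := ht 0
        obtain ⟨i', hi'⟩ := ht 1
        refine ⟨a * i + b * i', ?_⟩
        have e : LT.freq (perBasis D) k * (D.nK : S.K) * (S.eK (LT.Period.eis a b) : S.K) =
            (a : ℚ) • (LT.freq (perBasis D) k * perBasis D 0) +
              (b : ℚ) • (LT.freq (perBasis D) k * perBasis D 1) := by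
          rw [perBasis_zero, perBasis_one,
            show LT.Period.eis a b = (a : EisInt) + (b : EisInt) * ⟨omega, LT.Period.omega_mem⟩ from
              Subtype.ext (by simp [LT.Period.coe_eis]),
            map_add, map_mul, map_intCast, map_intCast, Algebra.smul_def, Algebra.smul_def,
            map_intCast, map_intCast]
          simp only [RingOfIntegers.coe_eq_algebraMap, map_mul, map_one, map_add, map_intCast]
          ring
        rw [e, map_add, map_smul, map_smul, hi, hi']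
        simp
    obtain ⟨x, rfl⟩ := S.eK.surjective z
    have hx : nu' D x = LT.freq (perBasis D) k := by
      rw [nu', hz, mul_comm (LT.freq (perBasis D) k), ← mul_assoc,
        mul_comm (S.deltaK : S.K) (D.nK : S.K), mul_div_cancel_left₀ _ (den_ne_zero D)]
    have hx0 : x ≠ 0 := fun h0 => hk (LT.freq_eq_zero_iff.mp (by
      rw [← hx, h0, (nu'_eq_zero_iff D 0).mpr rfl]))
    rw [← hx, emb_nu', norm_div, hE]
    refine div_le_div_of_nonneg_right ?_ (norm_nonneg _)
    rw [← Real.sqrt_one]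
    exact (Real.sqrt_le_sqrt (LT.Period.one_le_normSq hx0)).trans_eq (Complex.norm_def _).symm
  set r₀ : ℝ := 4 * π * E with hr₀
  have hr0 : 0 < r₀ := by positivity
  set x₁ : XInf S.K := fun _ => (⟨0, 1, one_pos⟩ : H3) with hx₁
  refine ⟨|C| * (2 * Real.exp r₀ / r₀ ^ 2) * ∑' k, ‖waveProd (LT.freq (perBasis D) k) x₁‖,
    fun P hP => ?_⟩
  have hterm : ∀ k, ‖LT.coefW (perBasis D) (fun x => ψ x (kMat D m)) k *
      waveProd (LT.freq (perBasis D) k) (fun _ => P)‖ ≤
      |C| * (2 * Real.exp r₀ / r₀ ^ 2 / P.t) * ‖waveProd (LT.freq (perBasis D) k) x₁‖ := by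
    intro k
    rcases eq_or_ne k 0 with rfl | hk
    · rw [LT.freq_eq_zero_iff.mpr rfl, LT.waveProd_zero, LT.waveProd_zero]
      simp
    rw [norm_mul, mul_assoc]
    refine mul_le_mul ((hC k hk).trans (le_abs_self C)) ?_ (norm_nonneg _) (abs_nonneg C)
    have ht0 : 0 < P.t := by linarith
    set a : ℝ := ‖S.emb (LT.freq (perBasis D) k)‖ with ha
    have ha0 : 0 < a := hE0.trans_le (hlow k hk)
    rw [LT.norm_waveProd, LT.norm_waveProd, Fintype.prod_unique, Fintype.prod_unique]
    rw [show ((default : InfinitePlace S.K).embedding (LT.freq (perBasis D) k)) =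
      S.emb (LT.freq (perBasis D) k) from rfl, ← ha]
    simp only [hx₁, one_mul, mul_one]
    have hK := H3.besselK0_le_exp (r₀ := 4 * π * a) (r := 4 * π * a * P.t) (by positivity)
      (le_mul_of_one_le_right (by positivity) hP)
    have hexp : Real.exp (-(4 * π * a * P.t - 4 * π * a)) ≤ Real.exp (-(r₀ * P.t - r₀)) := by
      refine Real.exp_le_exp.mpr ?_
      have : 0 ≤ (4 * π * a - r₀) * (P.t - 1) :=
        mul_nonneg (sub_nonneg.mpr (mul_le_mul_of_nonneg_left (hlow k hk) (by positivity)))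
          (by linarith)
      linarith
    have hmain : P.t * Real.exp (-(r₀ * P.t - r₀)) ≤ 2 * Real.exp r₀ / r₀ ^ 2 / P.t := by
      have hq := Real.quadratic_le_exp_of_nonneg (show 0 ≤ r₀ * P.t by positivity)
      rw [neg_sub, Real.exp_sub, div_div, mul_div_assoc',
        div_le_div_iff₀ (Real.exp_pos _) (by positivity)]
      have h2 : (r₀ * P.t) ^ 2 / 2 ≤ Real.exp (r₀ * P.t) := by nlinarith
      nlinarith [Real.exp_pos r₀]
    have hKpos := (H3.besselK0_pos (show 0 < 4 * π * a by positivity)).le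
    calc a * (P.t * H3.besselK0 (4 * π * a * P.t))
        ≤ a * (P.t * (Real.exp (-(r₀ * P.t - r₀)) * H3.besselK0 (4 * π * a))) := by
          refine mul_le_mul_of_nonneg_left (mul_le_mul_of_nonneg_left (hK.trans ?_) ht0.le) ha0.le
          exact mul_le_mul_of_nonneg_right hexp hKpos
      _ = P.t * Real.exp (-(r₀ * P.t - r₀)) * (a * H3.besselK0 (4 * π * a)) := by ring
      _ ≤ _ := mul_le_mul_of_nonneg_right hmain (mul_nonneg ha0.le hKpos)
  rw [phiCl, ← (hb.hasSum_coefW hzero fun _ => P).tsum_eq]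
  have hs := (LT.summable_norm_waveProd_freq (perBasis D) x₁).mul_left
    (|C| * (2 * Real.exp r₀ / r₀ ^ 2 / P.t))
  refine (tsum_of_norm_bounded hs.hasSum hterm).trans (le_of_eq ?_)
  rw [tsum_mul_left]
  ring

end ToBianchi

end FermatAgent.LTG

end
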