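import Mathlib
import Fermat.Agent.LT.General.Classical.Form
import Fermat.Agent.LT.Descent.Classical.Hecke

set_option autoImplicit false

/-!
# The classical Hecke operator at a prime of degree one
-/

noncomputable section

open NumberField IsDedekindDomain WithZero
open scoped Classical
open Complex (normSq)
open FermatAgent.LT (XInf Adf GAf H3 EisInt eisIdeal heckeRep heckeRepMod upperTri loc atPlace updAt
  updAt_self updAt_of_ne ideleAt ideleAt_self ideleAt_of_ne ideleAt_one piLoc pi infAct rationalMat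
  IsEigenAt)
open FermatAgent.LT.Descended (nExp RedA RedG IsUnitId redA_zero redA_one redG_upperTri)

namespace FermatAgent.LTG

namespace ToBianchi

variable {S : Setup} (D : S.Level)

theorem redA_of_eq_off {v : HeightOneSpectrum (𝓞 S.K)} (hv : nExp D.nK v = 0) {X : Adf S.K}
    {o : 𝓞 S.K} (hoff : ∀ w, w ≠ v → X w = loc w (o : S.K)) (hint : Valued.v (X v) ≤ 1) :
    RedA D.nK X (Ideal.Quotient.mk _ o) := by
  refine RedA.of_rep D.nK_ne_zero fun w => ?_
  rw [LT.adele_sub_apply, LT.adele_algebraMap_apply]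
  rcases eq_or_ne w v with rfl | hw
  · rw [hv]
    refine (Valuation.map_sub _ _ _).trans (max_le (hint.trans (by simp)) ?_)
    rw [valued_int]
    simpa using w.intValuation_le_one o
  · rw [hoff w hw, sub_self, map_zero]
    exact zero_le

variable (S) in
/-- A rational element of valuation one over the uniformizer at its place. -/
theorem isUnitId_mul_inv {π : 𝓞 S.K} (hπ : π ≠ 0) {v : HeightOneSpectrum (𝓞 S.K)}
    (hv : v.asIdeal = Ideal.span {π}) (c : S.Kˣ) (hc : (c : S.K) = (π : S.K)) :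
    IsUnitId (ratId S c * ideleAt v (piLoc v)⁻¹) := by
  intro w
  rw [Units.val_mul, LT.adele_mul_apply, map_mul, ratId_apply, hc, valued_int]
  by_cases hw : w = v
  · subst hw
    rw [ideleAt_self, Units.val_inv_eq_inv_val, map_inv₀]
    change w.intValuation π * (Valued.v (loc w (pi w : S.K)))⁻¹ = 1
    rw [LT.valued_uniformizer, w.intValuation_singleton hπ hv]
    exact mul_inv_cancel₀ exp_ne_zero
  · rw [ideleAt_of_ne _ hw, map_one, mul_one, HeightOneSpectrum.intValuation_eq_one_iff]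
    exact fun hm => hw (HeightOneSpectrum.ext (v.isMaximal.eq_of_le w.isPrime.ne_top
      (hv ▸ (Ideal.span_singleton_le_iff_mem _).mpr hm)).symm)

theorem redA_mul_inv {π : 𝓞 S.K} (hπ : π ≠ 0) {v : HeightOneSpectrum (𝓞 S.K)}
    (hv : v.asIdeal = Ideal.span {π}) (hev : nExp D.nK v = 0) (c : S.Kˣ)
    (hc : (c : S.K) = (π : S.K)) :
    RedA D.nK ((ratId S c * ideleAt v (piLoc v)⁻¹ : (Adf S.K)ˣ) : Adf S.K)
      (Ideal.Quotient.mk _ π) := by
  refine redA_of_eq_off D hev (fun w hw => ?_) (isUnitId_mul_inv S hπ hv c hc v).le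
  rw [Units.val_mul, LT.adele_mul_apply, ratId_apply, hc, ideleAt_of_ne _ hw, mul_one]

theorem updAt_zero (v : HeightOneSpectrum (𝓞 S.K)) :
    updAt v (0 : v.adicCompletion S.K) 0 = 0 := by
  refine FiniteAdeleRing.ext _ fun w => ?_
  by_cases hw : w = v
  · subst hw; rw [updAt_self]; rfl
  · rw [updAt_of_ne _ _ _ hw]; simp [LT.adele_zero_apply]

theorem residues_bijective {π : EisInt} {p : ℕ} (hπ : Prime π) (hp : p.Prime)
    (hnorm : normSq (π : ℂ) = p) :
    Function.Bijective fun k : Fin p =>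
      Ideal.Quotient.mk (placeOf S π hπ).asIdeal (-(S.eK (((k : ℕ) : EisInt)))) := by
  have hmem : ∀ z : EisInt, S.eK z ∈ (placeOf S π hπ).asIdeal ↔ π ∣ z := eK_mem_placeOf S hπ
  constructor
  · intro k k' hk
    rw [Ideal.Quotient.eq, ← map_neg, ← map_neg, ← map_sub, hmem] at hk
    have h1 : π ∣ (((k' : ℕ) : ℤ) - (k : ℕ) : ℤ) := by
      push_cast
      convert hk using 1
      ring
    rw [LT.Period.dvd_intCast_iff hp hnorm] at h1
    have := Int.eq_zero_of_dvd_of_natAbs_lt_natAbs h1 (by omega)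
    exact Fin.ext (by omega)
  · intro r
    obtain ⟨o, rfl⟩ := Ideal.Quotient.mk_surjective r
    obtain ⟨z, rfl⟩ := S.eK.surjective o
    obtain ⟨n, hn⟩ := LT.Period.exists_intCast_sub hp hnorm z
    have hlt : ((-n) % (p : ℤ)).toNat < p := by
      have := Int.emod_lt_of_pos (-n) (by exact_mod_cast hp.pos : (0 : ℤ) < p)
      have := Int.emod_nonneg (-n) (by exact_mod_cast hp.ne_zero : (p : ℤ) ≠ 0)
      omega
    refine ⟨⟨_, hlt⟩, ?_⟩
    rw [Ideal.Quotient.eq, ← map_neg, ← map_sub, hmem]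
    have hd : π ∣ ((-n - (((-n) % (p : ℤ)).toNat : ℕ) : ℤ) : EisInt) := by
      rw [LT.Period.dvd_intCast_iff hp hnorm, Int.toNat_of_nonneg
        (Int.emod_nonneg (-n) (by exact_mod_cast hp.ne_zero : (p : ℤ) ≠ 0))]
      exact Int.dvd_self_sub_emod
    have h2 := dvd_sub hd hn
    push_cast at h2 ⊢
    convert h2 using 1
    ring

variable {D} {ψ : XInf S.K → GAf S.K → ℂ} {W : GAf S.K → ℂ} (h : D.IsDepleted ψ W)
include h

theorem phiCl_smul_eq (γ : GL (Fin 2) S.K) (G : GL (Fin 2) ℂ)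
    (hG : ∀ i j, G i j = S.emb (γ i j)) {m m' : GL (Fin 2) (EisInt ⧸ eisIdeal D.lvl)}
    {v : HeightOneSpectrum (𝓞 S.K)} (hv : nExp D.nK v = 0)
    (M : GL (Fin 2) (v.adicCompletion S.K))
    (hred : RedG D.nK (rationalMat γ * (atPlace v M *
      upperTri (ideleAt v (piLoc v)⁻¹) 0 (ideleAt v (piLoc v)⁻¹))) (toResG D m'))
    (P : H3) :
    phiCl D ψ (G • P) (m' * m) = ψ (fun _ => P) (kMat D m * atPlace v M) := by
  have hx : (fun _ : InfinitePlace S.K => G • P) = infAct γ (fun _ => P) := by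
    funext w
    rw [LT.infAct]
    congr 1
    refine Units.ext (Matrix.ext fun i j => ?_)
    rw [Matrix.GeneralLinearGroup.map_apply, S.embedding_eq]
    exact hG i j
  set Z : GAf S.K := upperTri (ideleAt v (piLoc v)⁻¹) 0 (ideleAt v (piLoc v)⁻¹) with hZ
  have hZ' : Z = atPlace v (upperTri (piLoc v)⁻¹ 0 (piLoc v)⁻¹) := by
    rw [LT.atPlace_upperTri, updAt_zero, hZ]
  have hr : RedG D.nK (rationalMat γ * (kMat D m * (atPlace v M * Z))) (toResG D (m' * m)) := by
    rw [hZ', ← map_mul, ← LT.Dihedral.atPlace_comm _ (kMat_apply_of_good D m hv), ← mul_assoc, map_mul,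
      map_mul, ← hZ']
    exact hred.mul D.nK_ne_zero (redG_kMat D m)
  rw [phiCl, hx, ← congr_red h hr (redG_kMat D _), h.cusp.rational, ← mul_assoc, hZ,
    h.cusp.central]

theorem phiCl_hecke {l : ℂ} (π : EisInt) (hπ0 : (π : ℂ) ≠ 0) (p : ℕ)
    (u : (EisInt ⧸ eisIdeal D.lvl)ˣ) (hπ : Prime π) (hp : p.Prime)
    (hnorm : normSq (π : ℂ) = p)
    (hu : (u : EisInt ⧸ eisIdeal D.lvl) = Ideal.Quotient.mk _ π)
    (heig : IsEigenAt (placeOf S π hπ) ψ l) (P : H3)
    (m : GL (Fin 2) (EisInt ⧸ eisIdeal D.lvl)) :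
    (∑ b ∈ (Finset.range p).image (fun k : ℕ => some (k : EisInt)) ∪ {none},
      phiCl D ψ (heckeRep π hπ0 b • P) (heckeRepMod D.lvl u b * m)) =
      (Real.sqrt p : ℂ) * l * phiCl D ψ P m := by
  obtain ⟨v, hv⟩ : ∃ v, v = placeOf S π hπ := ⟨_, rfl⟩
  rw [← hv] at heig
  have hgen : v.asIdeal = Ideal.span {S.eK π} := by rw [hv]; rfl
  have hcop : ¬ π ∣ (D.lvl : EisInt) := fun hd => by
    refine hπ.not_isUnit ?_
    obtain ⟨r, hr⟩ := Ideal.Quotient.mk_surjective ((u⁻¹ : (EisInt ⧸ eisIdeal D.lvl)ˣ) :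
      EisInt ⧸ eisIdeal D.lvl)
    have h1 : π * r - 1 ∈ eisIdeal D.lvl := by
      rw [← Ideal.Quotient.eq, map_mul, map_one, ← hu, hr, Units.mul_inv]
    obtain ⟨c, hc⟩ := Ideal.mem_span_singleton'.mp h1
    obtain ⟨d, hd⟩ := hd
    exact IsUnit.of_mul_eq_one (r - c * d) (by rw [hd] at hc; linear_combination -hc)
  have hve : nExp D.nK v = 0 :=
    (LT.Descended.nExp_eq_zero_iff D.nK_ne_zero v).mpr fun hm =>
      hcop ((natCast_mem_placeOf S hπ _).mp (hv ▸ hm))
  have hπK : (S.eK π : S.K) ≠ 0 :=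
    RingOfIntegers.coe_ne_zero_iff.mpr ((map_ne_zero_iff _ S.eK.injective).mpr hπ.ne_zero)
  set c : S.Kˣ := Units.mk0 _ hπK with hc
  set u' : D.ResKˣ := Units.map (resEquiv D).toRingHom.toMonoidHom u with hu'
  have hu'val : (u' : D.ResK) = Ideal.Quotient.mk _ (S.eK π) := by
    rw [hu', Units.coe_map]
    exact (congrArg (resEquiv D) hu).trans (resEquiv_mk D π)
  have hone : IsUnitId (1 : (Adf S.K)ˣ) := fun w => by
    rw [Units.val_one, LT.adele_one_apply, map_one]
  have hπ' : S.eK π ≠ 0 := (map_ne_zero_iff _ S.eK.injective).mpr hπ.ne_zero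
  have hinv : ideleAt v (piLoc v) * ideleAt v (piLoc v)⁻¹ = 1 := by
    rw [← ideleAt_one v]
    exact (map_mul (LT.ideleAtHom v) _ _).symm.trans (congrArg (ideleAt v) (mul_inv_cancel _))
  have hnone : phiCl D ψ (heckeRep π hπ0 none • P) (heckeRepMod D.lvl u none * m) =
      ψ (fun _ => P) (kMat D m * atPlace v (upperTri 1 0 (piLoc v))) := by
    refine phiCl_smul_eq h (upperTri c 0 1) _ (fun i j => ?_) hve _ ?_ P
    · fin_cases i <;> fin_cases j <;> simp [LT.heckeRep, upperTri, hc, S.emb_eK]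
    · rw [LT.atPlace_upperTri, updAt_zero, ideleAt_one, LT.upperTri_mul, LT.rationalMat_upperTri,
        LT.upperTri_mul,
        show toResG D (heckeRepMod D.lvl u none) = upperTri u' 0 1 from toResG_diagMat D u]
      simp only [map_zero, map_one, one_mul, zero_mul, mul_zero, add_zero, hinv]
      exact redG_upperTri D.nK_ne_zero (isUnitId_mul_inv S hπ' hgen c rfl) hone
        (by rw [hu'val]; exact redA_mul_inv D hπ' hgen hve c rfl) (redA_zero D.nK_ne_zero)
        (by simpa using redA_one D.nK_ne_zero)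
  have hsome : ∀ b : EisInt,
      phiCl D ψ (heckeRep π hπ0 (some b) • P) (heckeRepMod D.lvl u (some b) * m) =
        ψ (fun _ => P) (kMat D m * atPlace v (upperTri (piLoc v)
          (algebraMap S.K (v.adicCompletion S.K) ((Function.surjInv
            (Ideal.Quotient.mk_surjective (I := v.asIdeal))
            (Ideal.Quotient.mk v.asIdeal (-(S.eK b))) : 𝓞 S.K) : S.K)) 1)) := by
    intro b
    set o : 𝓞 S.K := Function.surjInv (Ideal.Quotient.mk_surjective (I := v.asIdeal))
      (Ideal.Quotient.mk v.asIdeal (-(S.eK b))) with ho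
    have hob : o + S.eK b ∈ v.asIdeal := by
      have h1 := Function.surjInv_eq (Ideal.Quotient.mk_surjective (I := v.asIdeal))
        (Ideal.Quotient.mk v.asIdeal (-(S.eK b)))
      rw [← ho, Ideal.Quotient.eq, sub_neg_eq_add] at h1
      exact h1
    refine phiCl_smul_eq h (upperTri 1 (S.eK b : S.K) c) _ (fun i j => ?_) hve _ ?_ P
    · fin_cases i <;> fin_cases j <;> simp [LT.heckeRep, upperTri, hc, S.emb_eK]
    · rw [LT.atPlace_upperTri, ideleAt_one, LT.upperTri_mul, LT.rationalMat_upperTri,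
        LT.upperTri_mul,
        show toResG D (heckeRepMod D.lvl u (some b)) =
          upperTri 1 (Ideal.Quotient.mk _ (S.eK b)) u' from by
          refine Units.ext (Matrix.ext fun i j => ?_)
          fin_cases i <;> fin_cases j <;>
            simp [toResG, LT.heckeRepMod, upperTri, Matrix.GeneralLinearGroup.map_apply,
              resEquiv_mk, hu']]
      simp only [map_one, one_mul, mul_zero, zero_add, hinv]
      refine redG_upperTri D.nK_ne_zero hone (isUnitId_mul_inv S hπ' hgen c rfl)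
        (by simpa using redA_one D.nK_ne_zero) ?_
        (by rw [hu'val]; exact redA_mul_inv D hπ' hgen hve c rfl)
      refine redA_of_eq_off D hve (fun w hw => ?_) ?_
      · rw [Units.val_one, one_mul, LT.adele_add_apply, LT.adele_mul_apply, LT.adele_mul_apply,
          LT.adele_algebraMap_apply, updAt_of_ne _ _ _ hw, ideleAt_of_ne _ hw, Nat.cast_zero,
          mul_one, zero_add, mul_one]
      · rw [Units.val_one, one_mul, LT.adele_add_apply, LT.adele_mul_apply, LT.adele_mul_apply,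
          LT.adele_algebraMap_apply, updAt_self, ideleAt_self, Units.val_inv_eq_inv_val]
        change Valued.v (loc v (o : S.K) * (loc v (pi v : S.K))⁻¹ +
          loc v (S.eK b : S.K) * (loc v (pi v : S.K))⁻¹) ≤ 1
        rw [← add_mul, ← map_add, ← map_add (algebraMap (𝓞 S.K) S.K), map_mul, map_inv₀, valued_int,
          LT.valued_uniformizer, ← div_eq_mul_inv, div_le_one₀ (zero_lt_iff.mpr exp_ne_zero)]
        exact (v.intValuation_le_pow_iff_mem _ 1).mpr (by rw [pow_one]; exact hob)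
  have : Finite (𝓞 S.K ⧸ v.asIdeal) := Ideal.finiteQuotientOfFreeOfNeBot _ v.ne_bot
  let _ := Fintype.ofFinite (𝓞 S.K ⧸ v.asIdeal)
  have hN : Ideal.absNorm v.asIdeal = p := by
    have h1 : (Ideal.absNorm v.asIdeal : ℝ) = (p : ℝ) := by rw [hv, absNorm_placeOf, hnorm]
    exact Nat.cast_injective h1
  have key := heig (fun _ => P) (kMat D m)
  rw [LT.heckeT, finsum_eq_sum_of_fintype, hN] at key
  refine Eq.trans ?_ key
  rw [Finset.sum_union (by simp), Finset.sum_singleton, hnone]
  congr 1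
  rw [Finset.sum_image (fun a _ b _ hab => Nat.cast_injective (R := ℤ) (by
      have h1 := Option.some_inj.mp hab
      rw [LT.Period.natCast_eq_eis, LT.Period.natCast_eq_eis] at h1
      exact (LT.Period.eis_inj h1).1)), Finset.sum_range]
  refine Fintype.sum_bijective (fun k : Fin p =>
      Ideal.Quotient.mk v.asIdeal (-(S.eK (((k : ℕ) : EisInt))))) ?_ _ _ fun k => hsome _
  subst hv
  exact residues_bijective hπ hp hnorm

end ToBianchi

end FermatAgent.LTG

end
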