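import Mathlib
import Fermat.Agent.LT.General.Classical.Hecke
import Fermat.Agent.LT.General.Period.Frobenius
import Fermat.Agent.LT.Descent.Classical.Frob

set_option autoImplicit false

/-!
# The Bianchi form of a descended form
-/

noncomputable section

open NumberField IsDedekindDomain MeasureTheory
open scoped Classical ComplexConjugate
open Complex (normSq)
open FermatAgent.LT (XInf Adf GAf H3 EisInt quaternionSubgroup q8Trace IsFrobOver HasExpansion diagW)
open FermatAgent.Duality.Global (Over exists_place exists_over)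

namespace FermatAgent.LTG

local notation "Qb" => AlgebraicClosure ℚ
local notation "GQ" => AlgebraicClosure ℚ ≃ₐ[ℚ] AlgebraicClosure ℚ

attribute [local instance] FermatAgent.RT.isGalois_algClosureRat

namespace ToBianchi

variable {S : Setup} {D : S.Level} {T : Finset ℕ} {φ : XInf S.K → GAf S.K → ℂ}

theorem isCoprime_lvl {π : EisInt} {p : ℕ} (hp : p.Prime) (hpn : ¬ p ∣ D.lvl)
    (hπp : π ∣ (p : EisInt)) : IsCoprime π (D.lvl : EisInt) :=
  (LT.Period.isCoprime_natCast (hp.coprime_iff_not_dvd.mpr hpn)).of_isCoprime_of_dvd_left hπp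

theorem mem_fixing_K {σ : GQ} (h : S.ρ σ ∈ quaternionSubgroup) : σ ∈ S.K.fixingSubgroup := by
  rw [IntermediateField.mem_fixingSubgroup_iff]
  intro x hx
  exact hx ⟨σ, MonoidHom.mem_ker.mpr (Units.ext h.1)⟩

theorem eigVal_spec (h : IsDescended S D T φ) {π : EisInt} {p : ℕ} (hπ : Prime π) (hp : p.Prime)
    (hpe : p ∉ T.biUnion Nat.primeFactors) (hpn : ¬ p ∣ D.lvl) (hπp : π ∣ (p : EisInt)) {σ : GQ}
    (hσ : IsFrobOver (placeOf S π hπ) σ) (hq8 : S.ρ σ ∈ quaternionSubgroup) :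
    eigPi D h π = (q8Trace (S.ρ σ) : ℝ) := by
  have hv := not_mem_bad (D := D) hπ (isCoprime_lvl hp hpn hπp)
  have hT : ∀ q ∈ T, (q : 𝓞 S.K) ∉ (placeOf S π hπ).asIdeal := by
    intro q hq hmem
    rw [natCast_mem_placeOf] at hmem
    have hq0 : q ≠ 0 := fun h0 => h.T_ne_zero (h0 ▸ hq)
    have hnd : ¬ p ∣ q := fun hd =>
      hpe (Finset.mem_biUnion.mpr ⟨q, hq, Nat.mem_primeFactors.mpr ⟨hp, hd, hq0⟩⟩)
    exact hπ.not_isUnit ((LT.Period.isCoprime_natCast
      (hp.coprime_iff_not_dvd.mpr hnd)).isUnit_of_dvd' hπp hmem)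
  rw [eigPi, dif_pos hπ, eigVal, dif_neg hv]
  exact (h.eigen _ hv).choose_spec.2 hT σ hσ hq8

theorem liesOverPrime_of_over {A : ValuationSubring Qb} {v : HeightOneSpectrum (𝓞 S.K)}
    (hA : Over S.K A v) {p : ℕ} (hp : p.Prime) (hpv : (p : 𝓞 S.K) ∈ v.asIdeal) :
    A.LiesOverPrime p := by
  obtain ⟨ℓ, hℓ, hlA⟩ := hA.1
  rcases eq_or_ne ℓ p with rfl | hne
  · exact hlA
  exfalso
  have h1 := hA.natCast_mem hlA
  obtain ⟨a, b, hab⟩ := ((Int.isCoprime_iff_nat_coprime.2 (by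
    simpa using (Nat.coprime_primes hℓ hp).2 hne) : IsCoprime (ℓ : ℤ) (p : ℤ))).map
      (Int.castRingHom (𝓞 S.K))
  simp at hab
  exact v.isPrime.ne_top ((Ideal.eq_top_iff_one _).mpr
    (hab ▸ add_mem (Ideal.mul_mem_left _ a h1) (Ideal.mul_mem_left _ b hpv)))

theorem eigPi_split (h : IsDescended S D T φ) {π : EisInt} {p : ℕ} (hπ : Prime π) (hp : p.Prime)
    (hpe : p ∉ T.biUnion Nat.primeFactors) (hpn : ¬ p ∣ D.lvl) (hπp : π ∣ (p : EisInt))
    (hnorm : normSq (π : ℂ) = p) (hsplit : S.SplitsInF p) {A : ValuationSubring Qb}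
    (hA : A.LiesOverPrime p) {σ : GQ} (hσ : A.IsFrobeniusAt σ p) :
    eigPi D h π = (q8Trace (S.ρ σ) : ℝ) := by
  obtain ⟨B, hB⟩ := exists_place (K := S.K) (placeOf S π hπ)
  have hBp := liesOverPrime_of_over hB hp ((natCast_mem_placeOf S hπ p).mpr hπp)
  obtain ⟨g, hg⟩ := FermatAgent.TW.exists_smul_eq hp hA hBp
  have hσ' : B.IsFrobeniusAt (g * σ * g⁻¹) p := hg ▸ FermatAgent.GalRep.isFrobeniusAt_conj g hσ
  have hq8 := hsplit B hBp _ hσ'
  have habs : Ideal.absNorm (placeOf S π hπ).asIdeal = p := by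
    exact_mod_cast (absNorm_placeOf S hπ).trans hnorm
  have hfr : IsFrobOver (placeOf S π hπ) (g * σ * g⁻¹) :=
    ⟨mem_fixing_K hq8, B, fun x => (hB.mem_iff x).trans B.mem_nonunits_iff.symm, habs.symm ▸ hσ'⟩
  rw [eigVal_spec h hπ hp hpe hpn hπp hfr hq8, map_mul, map_mul, map_inv, LT.q8Trace_conj]

theorem eigPi_inert (h : IsDescended S D T φ) {p : ℕ} (hp : p.Prime)
    (hpe : p ∉ T.biUnion Nat.primeFactors) (hpn : ¬ p ∣ D.lvl) (hp3 : p % 3 = 2)
    {A : ValuationSubring Qb} (hA : A.LiesOverPrime p) {σ : GQ} (hσ : A.IsFrobeniusAt σ p) :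
    eigPi D h (p : EisInt) = (q8Trace (S.ρ σ ^ 2) : ℝ) := by
  have hπ := LT.Period.prime_of_inert hp hp3
  set v := placeOf S (p : EisInt) hπ with hv
  obtain ⟨P, hP⟩ := exists_over (K := S.K) (A := A) ⟨p, hp, hA⟩
  have hPv : P = v := HeightOneSpectrum.ext (v.isMaximal.eq_of_le P.isPrime.ne_top
    ((Ideal.span_singleton_le_iff_mem _).mpr (by rw [S.eK_natCast]; exact hP.natCast_mem hA))).symm
  subst hPv
  have hpm : ¬ p ∣ S.m := fun hd => hpn (hd.trans (dvd_pow_self _ (Nat.succ_ne_zero _)))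
  have hdet : ((S.ρ σ : GL (Fin 2) (ZMod 3)) : Matrix (Fin 2) (Fin 2) (ZMod 3)).det = 2 := by
    obtain ⟨x, hx⟩ := Period.exists_conj_frobImage S (p := ⟨p, hp⟩) hpm hA hσ
    rw [hx, ← Matrix.GeneralLinearGroup.val_det_apply, map_mul, map_mul, map_inv,
      mul_comm (Matrix.GeneralLinearGroup.det x), mul_assoc, mul_inv_cancel, mul_one,
      Matrix.GeneralLinearGroup.val_det_apply,
      FermatAgent.LT.Period.det_frobImage S.det_eq (p := ⟨p, hp⟩)
        (fun e => by change p = 3 at e; omega)]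
    change ((p : ℕ) : ZMod 3) = 2
    rw [← ZMod.natCast_mod, hp3]
    rfl
  have hq8 : S.ρ (σ ^ 2) ∈ quaternionSubgroup := by
    rw [map_pow]; exact LT.sq_mem_quaternionSubgroup hdet
  have habs : Ideal.absNorm (placeOf S (p : EisInt) hπ).asIdeal = p * p := by
    have e := absNorm_placeOf S hπ
    rw [show ((p : EisInt) : ℂ) = ((p : ℕ) : ℂ) from map_natCast EisInt.subtype p,
      Complex.normSq_natCast] at e
    exact_mod_cast e
  have hfr : IsFrobOver (placeOf S (p : EisInt) hπ) (σ ^ 2) :=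
    ⟨mem_fixing_K hq8, A, fun x => (hP.mem_iff x).trans A.mem_nonunits_iff.symm,
      habs.symm ▸ LT.isFrobeniusAt_sq hσ⟩
  rw [eigVal_spec h hπ hp hpe hpn dvd_rfl hfr hq8, map_pow]

end ToBianchi

open ToBianchi in
/-- **The Bianchi form of a descended form.** -/
theorem exists_bianchiForm (S : Setup) {D : S.Level} {T : Finset ℕ}
    {φ : XInf S.K → GAf S.K → ℂ} (h : IsDescended S D T φ) : Nonempty (BianchiForm S) := by
  have := isPID_eisInt S
  have hbox : D.IsBoxTyped φ := ⟨h.cusp, h.chi⟩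
  obtain ⟨W₀, hW₀⟩ := h.cusp.expansion
  obtain ⟨a₀, ha₀⟩ := hbox.exists_ne_zero h.ne_zero hW₀
  have hd := hbox.isDepleted hW₀ ha₀
  set ψ := D.dep φ a₀ with hψ
  set W := D.wDep W₀ a₀ with hW
  have heig : ∀ (v : HeightOneSpectrum (𝓞 S.K)) (l : ℂ), (S.m : 𝓞 S.K) ∉ v.asIdeal →
      LT.IsEigenAt v φ l → LT.IsEigenAt v ψ l := fun v l hv hl => hbox.eigen_dep hv hl a₀
  have hrec := heckeRec hd h heig
  obtain ⟨x₀, hx₀⟩ := exists_dCoef_ne_zero hd
  have h1 : dCoef D W 1 ≠ 0 := hrec.one_ne_zero hx₀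
  set C₁ := dCoef D W 1 with hC₁
  have hcπ : ∀ π : EisInt, Prime π → IsCoprime π (D.lvl : EisInt) →
      dCoef D W π / C₁ = (eigPi D h π : ℂ) := fun π hπ hπn => by
    rw [hrec.rec_one' hπ hπn, mul_div_assoc, div_self h1, mul_one]
  refine ⟨{
    N := D.lvl
    N_ne_zero := pow_ne_zero _ S.m_ne_zero
    m_dvd := dvd_pow_self _ (Nat.succ_ne_zero _)
    dvd_m := fun q hq hqd => hq.dvd_of_dvd_pow hqd
    φ := fun P g => phiCl D ψ P g / C₁
    invariant := fun γ P g => by rw [phiCl_invariant hd]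
    scalar := fun a P g => by rw [phiCl_scalar hd]
    continuous := fun g => (phiCl_continuous hd g).div_const C₁
    bounded := ?_
    decay := fun g => ?_
    sph0 := fun g => ?_
    cuspidal := fun t ht g => by
      simp only [div_eq_mul_inv, integral_mul_const, phiCl_cuspidal hd t ht g, zero_mul]
    c := fun x => dCoef D W x / C₁
    expansion := fun d P => ((phiCl_expansion hd d P).div_const C₁).congr_fun fun x => by ring
    c_zero := by rw [hrec.zero, zero_div]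
    c_one := div_self h1
    c_real := hrec.normalised_real h1
    c_unit := fun u ν => by rw [hrec.unit]
    c_support := fun ν hν => by rw [hrec.supp ν hν, zero_div]
    c_mul := fun μ ν hμν => hrec.normalised_mul h1 hμν
    c_prime_pow := fun π k hπ hπn => ?_
    exc := T.biUnion Nat.primeFactors
    c_split := fun π p hπ hp hpe hpn hπp hnorm hsplit A hA σ hσ => ?_
    c_inert := fun p hp hpe hpn hp3 A hA σ hσ => ?_
    hecke := fun π hπ0 p u hπ hp hnorm hu P g => ?_ }⟩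
  · obtain ⟨C, hC⟩ := phiCl_bounded hd
    exact ⟨C / ‖C₁‖, fun P g => by
      rw [norm_div]; exact div_le_div_of_nonneg_right (hC P g) (norm_nonneg C₁)⟩
  · obtain ⟨C, hC⟩ := phiCl_decay hd g
    refine ⟨C / ‖C₁‖, fun P hP => ?_⟩
    rw [norm_div, div_right_comm]
    exact div_le_div_of_nonneg_right (hC P hP) (norm_nonneg C₁)
  · convert LT.H3.IsSph0.const_mul (phiCl_sph0 hd g) C₁⁻¹ using 1
    funext P
    ring
  · rw [hcπ π hπ hπn, show π ^ (k + 2) = π * (π * π ^ k) by ring, hrec.rec_two π hπ hπn,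
      show π * π ^ k = π ^ (k + 1) by ring, sub_div, mul_div_assoc]
  · rw [hcπ π hπ (isCoprime_lvl hp hpn hπp),
      eigPi_split h hπ hp hpe hpn hπp hnorm hsplit hA hσ, Complex.ofReal_intCast]
  · rw [hcπ _ (LT.Period.prime_of_inert hp hp3) (isCoprime_lvl hp hpn dvd_rfl),
      eigPi_inert h hp hpe hpn hp3 hA hσ, Complex.ofReal_intCast]
  · have hcop : IsCoprime π (D.lvl : EisInt) := by
      obtain ⟨r, hr⟩ := Ideal.Quotient.mk_surjective ((u⁻¹ : (EisInt ⧸ LT.eisIdeal D.lvl)ˣ) :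
        EisInt ⧸ LT.eisIdeal D.lvl)
      have hmem : π * r - 1 ∈ LT.eisIdeal D.lvl := by
        rw [← Ideal.Quotient.eq, map_mul, map_one, ← hu, hr, Units.mul_inv]
      obtain ⟨e, he⟩ := Ideal.mem_span_singleton'.mp hmem
      exact ⟨r, -e, by linear_combination -he⟩
    have hv := not_mem_bad (D := D) hπ hcop
    have hl : LT.IsEigenAt (placeOf S π hπ) ψ (eigPi D h π : ℂ) := by
      rw [eigPi, dif_pos hπ, eigVal, dif_neg hv]
      exact heig _ _ hv (h.eigen _ hv).choose_spec.1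
    rw [← Finset.sum_div, phiCl_hecke hd π hπ0 p u hπ hp hnorm hu hl P g, hcπ π hπ hcop,
      mul_div_assoc]

end FermatAgent.LTG

end
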